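/-
FF-An → FF-C (Q2), part 1: a statement on ONE curve. For a divisor `Bb`, a basis `eb` of `L(Bb)`
(`m + 1` elements), `m` distinct places `Qs r` of degree one where `Bb` is trivial, and
`L(Bb - ∑ Qs r) = K · s` one-dimensional: the determinant section
`∑ j, cross (ev (Qs r) (eb j)) j • eb j` is a NONZERO multiple of `s`.
-/
import Fermat.Agent.S19lib.C.Cross
import Fermat.Agent.S19lib.C.Eval
import Fermat.Agent.S19lib.B.Special

set_option autoImplicit false

noncomputable section

namespace Fermat.Agent.S19lib.An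

open AlgebraicCurve Fermat.Agent.LSb Fermat.Agent.S19lib.C Module

variable {K F : Type*} [Field K] [Field F] [Algebra K F]

/-- the sum of `m` distinct points, evaluated at one of them -/
theorem sum_pt_apply_self {m : ℕ} (Qs : Fin m → Place K F) (hQ : Function.Injective Qs)
    (r0 : Fin m) :
    (∑ r, (Finsupp.single (Qs r) (1 : ℤ) : Divisor K F)) (Qs r0) = 1 := by
  classical
  rw [Finsupp.finsetSum_apply]
  simp only [Finsupp.single_apply]
  rw [Finset.sum_eq_single r0]
  · simp
  · intro r _ hr
    rw [if_neg (fun h => hr (hQ h))]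
  · intro h; exact absurd (Finset.mem_univ r0) h

/-- the sum of `m` distinct points, evaluated at another place -/
theorem sum_pt_apply_of_not_mem {m : ℕ} (Qs : Fin m → Place K F)
    (v : Place K F) (hv : ∀ r, Qs r ≠ v) :
    (∑ r, (Finsupp.single (Qs r) (1 : ℤ) : Divisor K F)) v = 0 := by
  classical
  rw [Finsupp.finsetSum_apply]
  simp only [Finsupp.single_apply]
  refine Finset.sum_eq_zero (fun r _ => ?_)
  rw [if_neg (hv r)]

/-- regularity at a place where the divisor is trivial -/
theorem regAt_of_mem_rr {Bb : Divisor K F} {f : F} (hf : f ∈ riemannRochSpace Bb)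
    {v : Place K F} (hv : Bb v = 0) : RegAt v f := by
  rcases mem_riemannRochSpace_iff.1 hf v with rfl | h
  · exact regAt_zero
  · rw [regAt_iff_ord]
    rw [hv] at h
    simpa using h

/-- a function of `L(Bb)` vanishing at `m` distinct places of degree one where `Bb` is trivial
lies in `L(Bb - ∑ Qs r)` -/
theorem mem_rr_sub_of_ev_eq_zero {m : ℕ} {Bb : Divisor K F} (Qs : Fin m → Place K F)
    (hQ : Function.Injective Qs) (hdeg : ∀ r, (Qs r).deg = 1) (hB : ∀ r, Bb (Qs r) = 0)
    {f : F} (hf : f ∈ riemannRochSpace Bb) (hev : ∀ r, ev (Qs r) f = 0) :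
    f ∈ riemannRochSpace (Bb - ∑ r, (Finsupp.single (Qs r) (1 : ℤ) : Divisor K F)) := by
  classical
  rw [mem_riemannRochSpace_iff]
  intro v
  rw [Finsupp.sub_apply]
  by_cases h : ∃ r, Qs r = v
  · obtain ⟨r0, rfl⟩ := h
    rw [sum_pt_apply_self Qs hQ r0]
    have hreg := regAt_of_mem_rr hf (hB r0)
    rcases (ev_eq_zero_iff (hdeg r0) hreg).1 (hev r0) with h0 | hpos
    · exact Or.inl h0
    · right
      rw [hB r0]
      omega
  · rw [sum_pt_apply_of_not_mem Qs v (fun r hr => h ⟨r, hr⟩)]
    rcases mem_riemannRochSpace_iff.1 hf v with h0 | h1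
    · exact Or.inl h0
    · right
      simpa using h1

/-- **the determinant section on one curve** -/
theorem exists_cross_section_eq_smul {m : ℕ} {Bb : Divisor K F} (eb : Fin (m + 1) → F)
    (hli : LinearIndependent K eb) (hspan : Submodule.span K (Set.range eb) = riemannRochSpace Bb)
    (Qs : Fin m → Place K F) (hQ : Function.Injective Qs) (hdeg : ∀ r, (Qs r).deg = 1)
    (hB : ∀ r, Bb (Qs r) = 0) {s : F}
    (hrr : riemannRochSpace (Bb - ∑ r, (Finsupp.single (Qs r) (1 : ℤ) : Divisor K F)) =
      Submodule.span K {s}) :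
    ∃ lam : K, lam ≠ 0 ∧
      ∑ j, cross (Matrix.of fun r j => ev (Qs r) (eb j)) j • eb j = lam • s := by
  classical
  set Λ : Matrix (Fin m) (Fin (m + 1)) K := Matrix.of fun r j => ev (Qs r) (eb j) with hΛ
  have hmem : ∀ j, eb j ∈ riemannRochSpace Bb := fun j => by
    rw [← hspan]; exact Submodule.subset_span ⟨j, rfl⟩
  have hreg : ∀ r j, RegAt (Qs r) (eb j) := fun r j => regAt_of_mem_rr (hmem j) (hB r)
  -- the linear combination map
  set ψ : (Fin (m + 1) → K) →ₗ[K] F := Fintype.linearCombination K eb with hψ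
  have hψapply : ∀ c, ψ c = ∑ j, c j • eb j := fun c => Fintype.linearCombination_apply K eb c
  have hψinj : Function.Injective ψ := by
    rw [injective_iff_map_eq_zero]
    intro c hc
    rw [hψapply] at hc
    funext j
    exact (Fintype.linearIndependent_iff.1 hli) c hc j
  have hψmem : ∀ c, ψ c ∈ riemannRochSpace Bb := fun c => by
    rw [hψapply]
    exact Submodule.sum_mem _ (fun j _ => Submodule.smul_mem _ _ (hmem j))
  -- evaluation of a combination
  have hevc : ∀ c r, ev (Qs r) (ψ c) = (Λ.mulVec c) r := by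
    intro c r
    rw [hψapply, ev_sum (hdeg r) _ _ (fun j _ => (hreg r j).smul (c j))]
    rw [Matrix.mulVec, dotProduct]
    refine Finset.sum_congr rfl (fun j _ => ?_)
    rw [ev_smul (hdeg r) _ (hreg r j), hΛ, Matrix.of_apply, mul_comm]
  -- the kernel of `Λ` maps into `span {s}`
  have hker : ∀ c, Λ.mulVec c = 0 → ψ c ∈ Submodule.span K {s} := by
    intro c hc
    rw [← hrr]
    refine mem_rr_sub_of_ev_eq_zero Qs hQ hdeg hB (hψmem c) (fun r => ?_)
    rw [hevc, hc, Pi.zero_apply]
  -- the kernel has dimension at most one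
  set Φ : (Fin (m + 1) → K) →ₗ[K] (Fin m → K) := Λ.mulVecLin with hΦ
  have hkerle : finrank K (LinearMap.ker Φ) ≤ 1 := by
    have h1 : (LinearMap.ker Φ).map ψ ≤ Submodule.span K {s} := by
      rintro _ ⟨c, hc, rfl⟩
      exact hker c (by simpa [hΦ] using hc)
    have h2 : finrank K ((LinearMap.ker Φ).map ψ) = finrank K (LinearMap.ker Φ) :=
      (Submodule.equivMapOfInjective ψ hψinj _).finrank_eq.symm
    have h3 : finrank K (Submodule.span K {s}) ≤ 1 := by
      have := finrank_span_le_card (R := K) ({s} : Set F)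
      simpa using this
    have h4 := Submodule.finrank_mono h1
    omega
  -- hence `Λ` is surjective
  have hsurj : Function.Surjective Φ := by
    rw [← LinearMap.range_eq_top]
    apply Submodule.eq_top_of_finrank_eq
    have h1 := LinearMap.finrank_range_add_finrank_ker Φ
    have h2 : finrank K (LinearMap.range Φ) ≤ finrank K (Fin m → K) := Submodule.finrank_le _
    rw [Module.finrank_fin_fun] at h1 h2 ⊢
    omega
  -- rows independent
  have hrows : LinearIndependent K (fun r => Λ r) := by
    rw [Fintype.linearIndependent_iff]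
    intro l hl r0
    obtain ⟨c, hc⟩ := hsurj (Pi.single r0 1)
    have h1 : ∑ r, l r * (Λ.mulVec c) r = 0 := by
      have h2 : ∀ r, (Λ.mulVec c) r = ∑ j, Λ r j * c j := fun r => rfl
      simp only [h2, Finset.mul_sum]
      rw [Finset.sum_comm]
      refine Finset.sum_eq_zero (fun j _ => ?_)
      have h3 := congrFun hl j
      simp only [Finset.sum_apply, Pi.smul_apply, smul_eq_mul, Pi.zero_apply] at h3
      calc ∑ r, l r * (Λ r j * c j) = (∑ r, l r * Λ r j) * c j := by
            rw [Finset.sum_mul]; exact Finset.sum_congr rfl (fun r _ => by ring)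
        _ = 0 := by rw [h3, zero_mul]
    have h4 : Λ.mulVec c = Pi.single r0 1 := by simpa [hΦ] using hc
    rw [h4] at h1
    simpa [Pi.single_apply] using h1
  -- conclusion
  have hcne : cross Λ ≠ 0 := cross_ne_zero hrows
  have hσ : ∑ j, cross Λ j • eb j = ψ (cross Λ) := (hψapply _).symm
  have hσmem : ψ (cross Λ) ∈ Submodule.span K {s} := hker _ (mulVec_cross Λ)
  obtain ⟨lam, hlam⟩ := Submodule.mem_span_singleton.1 hσmem
  refine ⟨lam, ?_, ?_⟩
  · rintro rfl
    rw [zero_smul] at hlam
    apply hcne
    apply hψinj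
    rw [← hlam, map_zero]
  · rw [hσ, hlam]

end Fermat.Agent.S19lib.An

end
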