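/-
S19lib / An / Defs  (helper3, architect)  — Project FF

The GENERAL form of the analyticity notion of `Iface.lean` (any field `L`, valuation subring `A`,
coefficient subring `R`, "uniformizer" `ϖ`), so that the geometry blocks can stay abstract
(no `FBar N`, no `ℚ̄`).  `A0Analytic A ℓ f` of the interface is `AnalyticOn A (A0 A) (ℓ : ℚ̄) f`
by `Iff.rfl` (`a0Analytic_iff`).  Block FF-An proves the calculus for `AnalyticOn`.
-/
import Mathlib
import Fermat.Agent.S19lib.Iface

set_option autoImplicit false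

noncomputable section

namespace Fermat.Agent.S19lib

variable {L : Type*} [Field L] (A : ValuationSubring L)

/-- `d ∈ (ϖ, u_i : i)^M` (ideal of `A`), phrased with the valuation. -/
def SmallAt {ι : Type*} (ϖ : L) (u : ι → L) (M : ℕ) (d : L) : Prop :=
  ∀ c : A.ValueGroup, A.valuation ϖ ≤ c → (∀ i, A.valuation (u i) ≤ c) → A.valuation d ≤ c ^ M

/-- the open unit polydisc `𝔪_A^ι` -/
def PolyDisc (ι : Type*) : Set (ι → L) := {u | ∀ i, A.valuation (u i) < 1}

/-- **`R`-analytic maps** `𝔪_A^ι → L`: approximable to every order `M`, modulo `(ϖ, u)^M`, by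
polynomials with coefficients in `R`. -/
def AnalyticOn (R : Subring L) (ϖ : L) {ι : Type*} (f : (ι → L) → L) : Prop :=
  ∀ M : ℕ, ∃ P : MvPolynomial ι L, (∀ m, P.coeff m ∈ R) ∧
    ∀ u ∈ PolyDisc A ι, SmallAt A ϖ u M (f u - MvPolynomial.eval u P)

/-- vector valued version -/
def AnalyticMap (R : Subring L) (ϖ : L) {ι κ : Type*} (f : (ι → L) → κ → L) : Prop :=
  ∀ j, AnalyticOn A R ϖ (fun u => f u j)

theorem AnalyticOn.congr {R : Subring L} {ϖ : L} {ι : Type*} {f f' : (ι → L) → L}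
    (h : AnalyticOn A R ϖ f) (hff' : ∀ u ∈ PolyDisc A ι, f u = f' u) : AnalyticOn A R ϖ f' := by
  intro M
  obtain ⟨P, hP, hPf⟩ := h M
  exact ⟨P, hP, fun u hu => by rw [← hff' u hu]; exact hPf u hu⟩

/-- the interface notion is the special case `L = ℚ̄`, `R = A0`, `ϖ = ℓ` -/
theorem a0Analytic_iff (A : ValuationSubring (AlgebraicClosure ℚ)) (ℓ : ℕ) {ι : Type}
    (f : (ι → AlgebraicClosure ℚ) → AlgebraicClosure ℚ) :
    A0Analytic A ℓ f ↔ AnalyticOn A (A0 A) ((ℓ : ℕ) : AlgebraicClosure ℚ) f := Iff.rfl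

end Fermat.Agent.S19lib

end
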