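/-
FF-An (Project FF, S19): abstract calculus of `A0`-analytic maps `𝔪_A^ι → A`.

`A0 → A` is an algebra, `A` a local ring with maximal ideal `𝔪`, `𝔠 ≤ 𝔪` an ideal of `A`
(`𝔠 = ⊥` : strict notion; `𝔠 = l·A` : notion stable under substitution of constants of `𝔪_{A0}`).
The gauge of a point `x : ι → A` is the ideal `𝔟(x) = (x_i : i) + 𝔠`.
A function `f : (ι → A) → A` (only its values on `𝔪^ι` matter) is analytic when for every order `M`
there is a polynomial `P` over `A0` with `f x - P(x) ∈ 𝔟(x)^M` for all `x ∈ 𝔪^ι`.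
-/
import Mathlib

namespace Fermat.Agent.S19lib.An

open MvPolynomial

variable (A0 : Type*) {A : Type*} [CommRing A0] [CommRing A] [Algebra A0 A]

/-- The gauge ideal `(x_i : i) + 𝔠` of a point. -/
def gauge (𝔠 : Ideal A) {ι : Type*} (x : ι → A) : Ideal A :=
  Ideal.span (Set.range x) ⊔ 𝔠

/-- The polydisc `𝔪^ι`. -/
def InDisc [IsLocalRing A] {ι : Type*} (x : ι → A) : Prop :=
  ∀ i, x i ∈ IsLocalRing.maximalIdeal A

/-- `P` approximates `f` to order `M` on the polydisc. -/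
def ApproxAt [IsLocalRing A] (𝔠 : Ideal A) {ι : Type*} (f : (ι → A) → A) (M : ℕ)
    (P : MvPolynomial ι A0) : Prop :=
  ∀ x : ι → A, InDisc x → f x - aeval x P ∈ gauge 𝔠 x ^ M

/-- `f` is `A0`-analytic on the polydisc (relative to the constant ideal `𝔠`). -/
def IsAn [IsLocalRing A] (𝔠 : Ideal A) {ι : Type*} (f : (ι → A) → A) : Prop :=
  ∀ M : ℕ, ∃ P : MvPolynomial ι A0, ApproxAt A0 𝔠 f M P

end Fermat.Agent.S19lib.An
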