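/-
FF-An: basic lemmas on gauges and approximants.
-/
import Fermat.Agent.S19lib.An.Gauge

namespace Fermat.Agent.S19lib.An

open MvPolynomial

variable (A0 : Type*) {A : Type*} [CommRing A0] [CommRing A] [Algebra A0 A]

section gauge

variable (𝔠 : Ideal A) {ι : Type*}

theorem le_gauge (x : ι → A) : 𝔠 ≤ gauge 𝔠 x := le_sup_right

theorem span_le_gauge (x : ι → A) : Ideal.span (Set.range x) ≤ gauge 𝔠 x := le_sup_left

theorem coord_mem_gauge (x : ι → A) (i : ι) : x i ∈ gauge 𝔠 x :=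
  span_le_gauge 𝔠 x (Ideal.subset_span ⟨i, rfl⟩)

theorem gauge_le_iff (x : ι → A) (J : Ideal A) :
    gauge 𝔠 x ≤ J ↔ (∀ i, x i ∈ J) ∧ 𝔠 ≤ J := by
  unfold gauge
  rw [sup_le_iff, Ideal.span_le]
  constructor
  · rintro ⟨h1, h2⟩
    exact ⟨fun i => h1 ⟨i, rfl⟩, h2⟩
  · rintro ⟨h1, h2⟩
    refine ⟨?_, h2⟩
    rintro _ ⟨i, rfl⟩
    exact h1 i

theorem gauge_mono_right {𝔠 𝔠' : Ideal A} (h : 𝔠 ≤ 𝔠') (x : ι → A) : gauge 𝔠 x ≤ gauge 𝔠' x :=
  sup_le_sup_left h _

theorem gauge_zero : gauge 𝔠 (0 : ι → A) = 𝔠 := by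
  apply le_antisymm
  · rw [gauge_le_iff]
    exact ⟨fun i => by simp, le_rfl⟩
  · exact le_gauge 𝔠 _

/-- If all coordinates of `y` lie in the gauge of `x` then `gauge y ≤ gauge x`. -/
theorem gauge_le_gauge {κ : Type*} (x : ι → A) (y : κ → A) (h : ∀ k, y k ∈ gauge 𝔠 x) :
    gauge 𝔠 y ≤ gauge 𝔠 x := by
  rw [gauge_le_iff]
  exact ⟨h, le_gauge 𝔠 x⟩

theorem gauge_le_maximalIdeal [IsLocalRing A] (h𝔠 : 𝔠 ≤ IsLocalRing.maximalIdeal A)
    (x : ι → A) (hx : InDisc x) : gauge 𝔠 x ≤ IsLocalRing.maximalIdeal A := by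
  rw [gauge_le_iff]
  exact ⟨hx, h𝔠⟩

end gauge

section poly

variable {ι : Type*}

/-- `P(x) - P(y)` lies in the ideal generated by the `x i - y i`. -/
theorem aeval_sub_aeval_mem (P : MvPolynomial ι A0) (x y : ι → A) (J : Ideal A)
    (h : ∀ i, x i - y i ∈ J) : aeval x P - aeval y P ∈ J := by
  rw [← Ideal.Quotient.eq]
  simp only [aeval_def]
  rw [eval₂_comp_left (Ideal.Quotient.mk J), eval₂_comp_left (Ideal.Quotient.mk J)]
  congr 1
  funext i
  simp only [Function.comp_apply]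
  exact Ideal.Quotient.eq.mpr (h i)

/-- `P(x) - P(0)` lies in the ideal generated by the coordinates. -/
theorem aeval_sub_constantCoeff_mem (P : MvPolynomial ι A0) (x : ι → A) :
    aeval x P - algebraMap A0 A (constantCoeff P) ∈ Ideal.span (Set.range x) := by
  have h := aeval_sub_aeval_mem A0 P x 0 (Ideal.span (Set.range x))
    (fun i => by
      have : x i ∈ Ideal.span (Set.range x) := Ideal.subset_span ⟨i, rfl⟩
      simpa using this)
  have h0 : aeval (0 : ι → A) P = algebraMap A0 A (constantCoeff P) := by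
    rw [← MvPolynomial.aeval_zero]
  rwa [h0] at h

end poly

section approx

variable [IsLocalRing A] (𝔠 : Ideal A) {ι : Type*}

variable {A0 𝔠}

theorem ApproxAt.mono_order {f : (ι → A) → A} {M M' : ℕ} {P : MvPolynomial ι A0}
    (h : ApproxAt A0 𝔠 f M P) (hM : M' ≤ M) : ApproxAt A0 𝔠 f M' P :=
  fun x hx => Ideal.pow_le_pow_right hM (h x hx)

theorem ApproxAt.mono_ideal {𝔠' : Ideal A} (h𝔠 : 𝔠 ≤ 𝔠') {f : (ι → A) → A} {M : ℕ}
    {P : MvPolynomial ι A0} (h : ApproxAt A0 𝔠 f M P) : ApproxAt A0 𝔠' f M P :=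
  fun x hx => Ideal.pow_right_mono (gauge_mono_right h𝔠 x) M (h x hx)

theorem IsAn.mono {𝔠' : Ideal A} (h𝔠 : 𝔠 ≤ 𝔠') {f : (ι → A) → A} (h : IsAn A0 𝔠 f) :
    IsAn A0 𝔠' f := fun M => by
  obtain ⟨P, hP⟩ := h M
  exact ⟨P, hP.mono_ideal h𝔠⟩

/-- Analyticity only depends on the values on the polydisc. -/
theorem IsAn.congr {f g : (ι → A) → A} (h : IsAn A0 𝔠 f) (hfg : ∀ x, InDisc x → f x = g x) :
    IsAn A0 𝔠 g := fun M => by
  obtain ⟨P, hP⟩ := h M
  exact ⟨P, fun x hx => by rw [← hfg x hx]; exact hP x hx⟩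

/-- An approximant of order `≥ 1`: the value is congruent to the constant coefficient
modulo the gauge. -/
theorem ApproxAt.sub_constantCoeff_mem {f : (ι → A) → A} {M : ℕ} {P : MvPolynomial ι A0}
    (h : ApproxAt A0 𝔠 f M P) (hM : 1 ≤ M) (x : ι → A) (hx : InDisc x) :
    f x - algebraMap A0 A (constantCoeff P) ∈ gauge 𝔠 x := by
  have h1 : f x - aeval x P ∈ gauge 𝔠 x := by
    have := (h.mono_order hM) x hx
    simpa using this
  have h2 := span_le_gauge 𝔠 x (aeval_sub_constantCoeff_mem A0 P x)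
  have := add_mem h1 h2
  simpa using this

theorem inDisc_zero : InDisc (0 : ι → A) := fun _ => by simp

/-- At the centre, the constant coefficient of an approximant of order `≥ 1` is congruent to
the value modulo `𝔠`. -/
theorem ApproxAt.zero_sub_constantCoeff_mem {f : (ι → A) → A} {M : ℕ} {P : MvPolynomial ι A0}
    (h : ApproxAt A0 𝔠 f M P) (hM : 1 ≤ M) :
    f 0 - algebraMap A0 A (constantCoeff P) ∈ 𝔠 := by
  have := h.sub_constantCoeff_mem hM 0 inDisc_zero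
  rwa [gauge_zero] at this

/-- If `f 0 ∈ 𝔠` then `f x` lies in the gauge of `x`. -/
theorem IsAn.mem_gauge {f : (ι → A) → A} (h : IsAn A0 𝔠 f) (h0 : f 0 ∈ 𝔠)
    (x : ι → A) (hx : InDisc x) : f x ∈ gauge 𝔠 x := by
  obtain ⟨P, hP⟩ := h 1
  have h1 := hP.sub_constantCoeff_mem le_rfl x hx
  have h2 := hP.zero_sub_constantCoeff_mem le_rfl
  have h3 : algebraMap A0 A (constantCoeff P) ∈ 𝔠 := by
    have := sub_mem h0 h2
    simpa using this
  have := add_mem h1 (le_gauge 𝔠 x h3)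
  simpa using this

end approx

end Fermat.Agent.S19lib.An
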