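/-
FF-An: closure of analytic functions under the ring operations, finite sums/products,
determinants and polynomial expressions.
-/
import Fermat.Agent.S19lib.An.Basic

namespace Fermat.Agent.S19lib.An

open MvPolynomial

variable {A0 : Type*} {A : Type*} [CommRing A0] [CommRing A] [Algebra A0 A] [IsLocalRing A]
variable {𝔠 : Ideal A} {ι : Type*}

/-- A polynomial function approximates itself to every order. -/
theorem approxAt_aeval (P : MvPolynomial ι A0) (M : ℕ) :
    ApproxAt A0 𝔠 (fun x => aeval x P) M P := fun x _ => by simp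

/-- Polynomial functions with coefficients in `A0` are analytic. -/
theorem isAn_aeval (P : MvPolynomial ι A0) : IsAn A0 𝔠 (fun x : ι → A => aeval x P) :=
  fun M => ⟨P, approxAt_aeval P M⟩

theorem isAn_const (a : A0) : IsAn A0 𝔠 (fun _ : ι → A => algebraMap A0 A a) :=
  (isAn_aeval (𝔠 := 𝔠) (C a : MvPolynomial ι A0)).congr (fun x _ => by simp)

theorem isAn_zero : IsAn A0 𝔠 (fun _ : ι → A => (0 : A)) :=
  (isAn_const (𝔠 := 𝔠) (ι := ι) (0 : A0)).congr (fun x _ => by simp)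

theorem isAn_one : IsAn A0 𝔠 (fun _ : ι → A => (1 : A)) :=
  (isAn_const (𝔠 := 𝔠) (ι := ι) (1 : A0)).congr (fun x _ => by simp)

theorem isAn_coord (i : ι) : IsAn A0 𝔠 (fun x : ι → A => x i) :=
  (isAn_aeval (𝔠 := 𝔠) (X i : MvPolynomial ι A0)).congr (fun x _ => by simp)

theorem ApproxAt.add {f g : (ι → A) → A} {M : ℕ} {P Q : MvPolynomial ι A0}
    (hf : ApproxAt A0 𝔠 f M P) (hg : ApproxAt A0 𝔠 g M Q) :
    ApproxAt A0 𝔠 (fun x => f x + g x) M (P + Q) := fun x hx => by
  have := add_mem (hf x hx) (hg x hx)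
  rw [map_add]
  convert this using 1
  ring

theorem ApproxAt.neg {f : (ι → A) → A} {M : ℕ} {P : MvPolynomial ι A0}
    (hf : ApproxAt A0 𝔠 f M P) : ApproxAt A0 𝔠 (fun x => - f x) M (-P) := fun x hx => by
  have := neg_mem (hf x hx)
  rw [map_neg]
  convert this using 1
  ring

theorem ApproxAt.mul {f g : (ι → A) → A} {M : ℕ} {P Q : MvPolynomial ι A0}
    (hf : ApproxAt A0 𝔠 f M P) (hg : ApproxAt A0 𝔠 g M Q) :
    ApproxAt A0 𝔠 (fun x => f x * g x) M (P * Q) := fun x hx => by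
  have h1 := Ideal.mul_mem_right (g x) _ (hf x hx)
  have h2 := Ideal.mul_mem_left _ (aeval x P) (hg x hx)
  have := add_mem h1 h2
  rw [map_mul]
  convert this using 1
  ring

theorem IsAn.add {f g : (ι → A) → A} (hf : IsAn A0 𝔠 f) (hg : IsAn A0 𝔠 g) :
    IsAn A0 𝔠 (fun x => f x + g x) := fun M => by
  obtain ⟨P, hP⟩ := hf M
  obtain ⟨Q, hQ⟩ := hg M
  exact ⟨P + Q, hP.add hQ⟩

theorem IsAn.neg {f : (ι → A) → A} (hf : IsAn A0 𝔠 f) : IsAn A0 𝔠 (fun x => - f x) :=
  fun M => by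
  obtain ⟨P, hP⟩ := hf M
  exact ⟨-P, hP.neg⟩

theorem IsAn.sub {f g : (ι → A) → A} (hf : IsAn A0 𝔠 f) (hg : IsAn A0 𝔠 g) :
    IsAn A0 𝔠 (fun x => f x - g x) :=
  (hf.add hg.neg).congr (fun x _ => by ring)

theorem IsAn.mul {f g : (ι → A) → A} (hf : IsAn A0 𝔠 f) (hg : IsAn A0 𝔠 g) :
    IsAn A0 𝔠 (fun x => f x * g x) := fun M => by
  obtain ⟨P, hP⟩ := hf M
  obtain ⟨Q, hQ⟩ := hg M
  exact ⟨P * Q, hP.mul hQ⟩

theorem IsAn.pow {f : (ι → A) → A} (hf : IsAn A0 𝔠 f) (n : ℕ) :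
    IsAn A0 𝔠 (fun x => f x ^ n) := by
  induction n with
  | zero => exact (isAn_one (𝔠 := 𝔠)).congr (fun x _ => by simp)
  | succ n ih => exact (ih.mul hf).congr (fun x _ => by ring)

theorem IsAn.smul {f : (ι → A) → A} (hf : IsAn A0 𝔠 f) (a : A0) :
    IsAn A0 𝔠 (fun x => a • f x) :=
  ((isAn_const (𝔠 := 𝔠) a).mul hf).congr (fun x _ => by rw [Algebra.smul_def])

theorem IsAn.const_mul {f : (ι → A) → A} (hf : IsAn A0 𝔠 f) (a : A0) :
    IsAn A0 𝔠 (fun x => algebraMap A0 A a * f x) :=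
  (isAn_const (𝔠 := 𝔠) a).mul hf

theorem IsAn.intCast_mul {f : (ι → A) → A} (hf : IsAn A0 𝔠 f) (n : ℤ) :
    IsAn A0 𝔠 (fun x => (n : A) * f x) :=
  (hf.const_mul (n : A0)).congr (fun x _ => by simp)

theorem IsAn.zsmul {f : (ι → A) → A} (hf : IsAn A0 𝔠 f) (n : ℤ) :
    IsAn A0 𝔠 (fun x => n • f x) :=
  (hf.intCast_mul n).congr (fun x _ => by simp)

theorem IsAn.finset_sum {α : Type*} (s : Finset α) {f : α → (ι → A) → A}
    (hf : ∀ a ∈ s, IsAn A0 𝔠 (f a)) : IsAn A0 𝔠 (fun x => ∑ a ∈ s, f a x) := by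
  classical
  induction s using Finset.induction_on with
  | empty => exact (isAn_zero (𝔠 := 𝔠)).congr (fun x _ => by simp)
  | insert a s ha ih =>
    have h1 := hf a (Finset.mem_insert_self a s)
    have h2 := ih (fun b hb => hf b (Finset.mem_insert_of_mem hb))
    exact (h1.add h2).congr (fun x _ => by rw [Finset.sum_insert ha])

theorem IsAn.finset_prod {α : Type*} (s : Finset α) {f : α → (ι → A) → A}
    (hf : ∀ a ∈ s, IsAn A0 𝔠 (f a)) : IsAn A0 𝔠 (fun x => ∏ a ∈ s, f a x) := by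
  classical
  induction s using Finset.induction_on with
  | empty => exact (isAn_one (𝔠 := 𝔠)).congr (fun x _ => by simp)
  | insert a s ha ih =>
    have h1 := hf a (Finset.mem_insert_self a s)
    have h2 := ih (fun b hb => hf b (Finset.mem_insert_of_mem hb))
    exact (h1.mul h2).congr (fun x _ => by rw [Finset.prod_insert ha])

/-- The determinant of a matrix of analytic functions is analytic. -/
theorem IsAn.det {n : Type*} [Fintype n] [DecidableEq n] {m : n → n → (ι → A) → A}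
    (hm : ∀ i j, IsAn A0 𝔠 (m i j)) :
    IsAn A0 𝔠 (fun x => Matrix.det (Matrix.of (fun i j => m i j x))) := by
  have : ∀ x : ι → A, Matrix.det (Matrix.of (fun i j => m i j x)) =
      ∑ σ : Equiv.Perm n, ((Equiv.Perm.sign σ : ℤ) : A) * ∏ i, m (σ i) i x := by
    intro x
    rw [Matrix.det_apply]
    refine Finset.sum_congr rfl (fun σ _ => ?_)
    rw [Units.smul_def, zsmul_eq_mul]
    simp [Matrix.of_apply]
  refine IsAn.congr ?_ (fun x _ => (this x).symm)
  refine IsAn.finset_sum _ (fun σ _ => ?_)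
  exact (IsAn.finset_prod _ (fun i _ => hm (σ i) i)).intCast_mul _

/-- A polynomial with `A0`-coefficients in analytic functions is analytic. -/
theorem IsAn.polyComp {κ : Type*} (Q : MvPolynomial κ A0) {g : κ → (ι → A) → A}
    (hg : ∀ k, IsAn A0 𝔠 (g k)) :
    IsAn A0 𝔠 (fun x => MvPolynomial.aeval (fun k => g k x) Q) := by
  induction Q using MvPolynomial.induction_on with
  | C a => exact (isAn_const (𝔠 := 𝔠) a).congr (fun x _ => by simp)
  | add p q hp hq => exact (hp.add hq).congr (fun x _ => by simp)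
  | mul_X p k hp => exact (hp.mul (hg k)).congr (fun x _ => by simp)

end Fermat.Agent.S19lib.An
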