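/-
FF-An: composition of analytic maps, reindexing, substitution of constants.
-/
import Fermat.Agent.S19lib.An.Ring

namespace Fermat.Agent.S19lib.An

open MvPolynomial

variable {A0 : Type*} {A : Type*} [CommRing A0] [CommRing A] [Algebra A0 A] [IsLocalRing A]
variable {𝔠 : Ideal A} {ι κ : Type*}

/-- Composition at the level of approximants: if `P` approximates `f` and `Q k` approximates
`g k` to order `M`, then `bind₁ Q P` approximates `f ∘ g` to order `M`. -/
theorem ApproxAt.comp {f : (κ → A) → A} {g : κ → (ι → A) → A} {M : ℕ}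
    {P : MvPolynomial κ A0} {Q : κ → MvPolynomial ι A0}
    (hf : ApproxAt A0 𝔠 f M P) (hg : ∀ k, ApproxAt A0 𝔠 (g k) M (Q k))
    (hgm : ∀ k x, InDisc x → g k x ∈ IsLocalRing.maximalIdeal A)
    (hgg : ∀ k x, InDisc x → g k x ∈ gauge 𝔠 x) :
    ApproxAt A0 𝔠 (fun x => f (fun k => g k x)) M (bind₁ Q P) := by
  intro x hx
  have hy : InDisc (fun k => g k x) := fun k => hgm k x hx
  have h1 : f (fun k => g k x) - aeval (fun k => g k x) P ∈ gauge 𝔠 x ^ M :=
    Ideal.pow_right_mono (gauge_le_gauge 𝔠 x _ (fun k => hgg k x hx)) M (hf _ hy)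
  have h2 : aeval (fun k => g k x) P - aeval (fun k => aeval x (Q k)) P ∈ gauge 𝔠 x ^ M :=
    aeval_sub_aeval_mem A0 P _ _ _ (fun k => hg k x hx)
  have h3 : aeval x (bind₁ Q P) = aeval (fun k => aeval x (Q k)) P := aeval_bind₁ _ _ _
  have := add_mem h1 h2
  rw [h3]
  convert this using 1
  ring

/-- **Composition.** `f` analytic in the variables `κ`, `g k` analytic in the variables `ι`,
mapping the polydisc into `𝔪` and the centre into `𝔠`. -/
theorem IsAn.comp {f : (κ → A) → A} {g : κ → (ι → A) → A}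
    (hf : IsAn A0 𝔠 f) (hg : ∀ k, IsAn A0 𝔠 (g k))
    (hgm : ∀ k x, InDisc x → g k x ∈ IsLocalRing.maximalIdeal A)
    (hg0 : ∀ k, g k 0 ∈ 𝔠) :
    IsAn A0 𝔠 (fun x => f (fun k => g k x)) := by
  intro M
  obtain ⟨P, hP⟩ := hf M
  choose Q hQ using fun k => hg k M
  exact ⟨bind₁ Q P, hP.comp hQ hgm (fun k x hx => (hg k).mem_gauge (hg0 k) x hx)⟩

/-- Reindexing of the variables along an arbitrary map. -/
theorem IsAn.reindex {f : (κ → A) → A} (hf : IsAn A0 𝔠 f) (e : κ → ι) :
    IsAn A0 𝔠 (fun x : ι → A => f (fun k => x (e k))) :=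
  hf.comp (g := fun k x => x (e k)) (fun k => isAn_coord (e k)) (fun k x hx => hx (e k))
    (fun k => by simp)

/-- Substitution: each variable `k` is replaced either by a variable `e k = Sum.inl i`
or by a constant `e k = Sum.inr a` with `a ∈ A0` mapping into `𝔠` (and into `𝔪`). -/
theorem IsAn.subst {f : (κ → A) → A} (hf : IsAn A0 𝔠 f) (e : κ → ι ⊕ A0)
    (h𝔠 : 𝔠 ≤ IsLocalRing.maximalIdeal A)
    (he : ∀ k a, e k = Sum.inr a → algebraMap A0 A a ∈ 𝔠) :
    IsAn A0 𝔠 (fun x : ι → A => f (fun k => Sum.elim x (algebraMap A0 A) (e k))) := by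
  refine hf.comp (g := fun k x => Sum.elim x (algebraMap A0 A) (e k)) (fun k => ?_)
    (fun k x hx => ?_) (fun k => ?_)
  · cases h : e k with
    | inl i => simpa [h] using isAn_coord (𝔠 := 𝔠) (A0 := A0) i
    | inr a => simpa [h] using isAn_const (𝔠 := 𝔠) (ι := ι) a
  · cases h : e k with
    | inl i => simpa [h] using hx i
    | inr a => simpa [h] using h𝔠 (he k a h)
  · cases h : e k with
    | inl i => simp
    | inr a => simpa [h] using he k a h

/-- A function of the variables `ι` is analytic as a function of the variables `ι ⊕ κ`. -/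
theorem IsAn.inl {f : (ι → A) → A} (hf : IsAn A0 𝔠 f) :
    IsAn A0 𝔠 (fun z : ι ⊕ κ → A => f (fun i => z (Sum.inl i))) :=
  hf.reindex Sum.inl

theorem IsAn.inr {f : (κ → A) → A} (hf : IsAn A0 𝔠 f) :
    IsAn A0 𝔠 (fun z : ι ⊕ κ → A => f (fun k => z (Sum.inr k))) :=
  hf.reindex Sum.inr

/-- A function of the variables `ι` is analytic as a function of the variables `Option ι`. -/
theorem IsAn.some {f : (ι → A) → A} (hf : IsAn A0 𝔠 f) :
    IsAn A0 𝔠 (fun z : Option ι → A => f (fun i => z (Option.some i))) :=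
  hf.reindex Option.some

/-- One-variable functions: `g : A → A` is analytic when `fun x : Unit → A => g (x ())` is. -/
def IsAn₁ (A0 : Type*) {A : Type*} [CommRing A0] [CommRing A] [Algebra A0 A] [IsLocalRing A]
    (𝔠 : Ideal A) (g : A → A) : Prop :=
  IsAn A0 𝔠 (fun x : Unit → A => g (x ()))

/-- A one-variable analytic function evaluated at a coordinate. -/
theorem IsAn₁.at_coord {g : A → A} (hg : IsAn₁ A0 𝔠 g) (i : ι) :
    IsAn A0 𝔠 (fun x : ι → A => g (x i)) :=
  IsAn.reindex (κ := Unit) hg (fun _ => i)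

/-- A one-variable analytic function composed with an analytic function. -/
theorem IsAn₁.comp {g : A → A} (hg : IsAn₁ A0 𝔠 g) {h : (ι → A) → A} (hh : IsAn A0 𝔠 h)
    (hhm : ∀ x, InDisc x → h x ∈ IsLocalRing.maximalIdeal A) (hh0 : h 0 ∈ 𝔠) :
    IsAn A0 𝔠 (fun x : ι → A => g (h x)) :=
  IsAn.comp (κ := Unit) (g := fun _ => h) hg (fun _ => hh) (fun _ => hhm) (fun _ => hh0)

end Fermat.Agent.S19lib.An
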