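/-
FF-An: Newton's method for analytic functions (implicit function with the root given).

`S` analytic in the variables `Option ι` (`none` = the unknown `r`), `ψ x` a root of `S(·; x)` in `𝔪`
for every `x` of the polydisc, simple at the centre: then `ψ` is analytic.
-/
import Fermat.Agent.S19lib.An.Comp

namespace Fermat.Agent.S19lib.An

open MvPolynomial

variable {A0 : Type*} {A : Type*} [CommRing A0] [CommRing A] [Algebra A0 A] [IsLocalRing A]
variable {𝔠 : Ideal A} {ι : Type*}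

/-- The point `(r; x)` of `Option ι → A`. -/
def ocons (r : A) (x : ι → A) : Option ι → A := fun o => Option.elim o r x

omit [CommRing A] [IsLocalRing A] in
@[simp] theorem ocons_none (r : A) (x : ι → A) : ocons r x none = r := rfl

omit [CommRing A] [IsLocalRing A] in
@[simp] theorem ocons_some (r : A) (x : ι → A) (i : ι) : ocons r x (some i) = x i := rfl

theorem inDisc_ocons {r : A} {x : ι → A} (hr : r ∈ IsLocalRing.maximalIdeal A) (hx : InDisc x) :
    InDisc (ocons r x) := by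
  intro o
  cases o with
  | none => exact hr
  | some i => exact hx i

omit [IsLocalRing A] in
theorem gauge_ocons_le (r : A) (x : ι → A) (J : Ideal A) (hr : r ∈ J) (hx : gauge 𝔠 x ≤ J) :
    gauge 𝔠 (ocons r x) ≤ J := by
  rw [gauge_le_iff]
  rw [gauge_le_iff] at hx
  refine ⟨fun o => ?_, hx.2⟩
  cases o with
  | none => exact hr
  | some i => exact hx.1 i

omit [IsLocalRing A] in
theorem gauge_ocons_le_sup (r : A) (x : ι → A) :
    gauge 𝔠 (ocons r x) ≤ gauge 𝔠 x ⊔ Ideal.span {r} :=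
  gauge_ocons_le r x _ (Ideal.mem_sup_right (Ideal.subset_span rfl)) le_sup_left

omit [IsLocalRing A] in
/-- Evaluation of a polynomial in the variables `Option ι` at `(r; x)` through
`optionEquivLeft`. -/
theorem aeval_ocons (P : MvPolynomial (Option ι) A0) (r : A) (x : ι → A) :
    aeval (ocons r x) P =
      Polynomial.eval r (Polynomial.map (aeval x : MvPolynomial ι A0 →ₐ[A0] A).toRingHom
        (optionEquivLeft A0 ι P)) := by
  induction P using MvPolynomial.induction_on with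
  | C a => simp
  | add p q hp hq => simp [hp, hq]
  | mul_X p o hp =>
    cases o with
    | none => simp [hp]
    | some i => simp [hp]

/-! ### Two lemmas on roots of polynomials over a local ring -/

/-- In a local ring, if `q.coeff 1` is a unit, `a, b ∈ 𝔪` and `q(a), q(b) ∈ J` then `a - b ∈ J`. -/
theorem sub_mem_of_eval_mem (q : Polynomial A) (hq : IsUnit (q.coeff 1)) {a b : A}
    (ha : a ∈ IsLocalRing.maximalIdeal A) (hb : b ∈ IsLocalRing.maximalIdeal A) (J : Ideal A)
    (hqa : q.eval a ∈ J) (hqb : q.eval b ∈ J) : a - b ∈ J := by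
  obtain ⟨k, hk⟩ := Polynomial.binomExpansion q b (a - b)
  obtain ⟨z, hz⟩ := Polynomial.evalSubFactor (Polynomial.derivative q) b 0
  have hd0 : (Polynomial.derivative q).eval 0 = q.coeff 1 := by
    rw [← Polynomial.coeff_zero_eq_eval_zero, Polynomial.coeff_derivative]
    simp
  have hab : b + (a - b) = a := by ring
  rw [hab] at hk
  -- `q a - q b = (a - b) * u`, `u` a unit
  set u := (Polynomial.derivative q).eval b + k * (a - b) with hu
  have hu1 : u - q.coeff 1 ∈ IsLocalRing.maximalIdeal A := by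
    have : u - q.coeff 1 = z * b + k * (a - b) := by
      rw [hu, ← hd0]
      have := hz
      rw [sub_zero] at this
      linear_combination this
    rw [this]
    exact add_mem (Ideal.mul_mem_left _ _ hb) (Ideal.mul_mem_left _ _ (sub_mem ha hb))
  have huu : IsUnit u := by
    by_contra hnu
    have hum : u ∈ IsLocalRing.maximalIdeal A := (IsLocalRing.mem_maximalIdeal u).mpr hnu
    have : q.coeff 1 ∈ IsLocalRing.maximalIdeal A := by
      have := sub_mem hum hu1
      simpa using this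
    exact (IsLocalRing.mem_maximalIdeal _).mp this hq
  have hmul : (a - b) * u ∈ J := by
    have : (a - b) * u = q.eval a - q.eval b := by
      rw [hk, hu]; ring
    rw [this]
    exact sub_mem hqa hqb
  obtain ⟨v, hv⟩ := huu.exists_right_inv
  have : a - b = (a - b) * u * v := by rw [mul_assoc, hv, mul_one]
  rw [this]
  exact Ideal.mul_mem_right _ _ hmul

/-- In a local ring, if `q.coeff 1` is a unit, `q.coeff 0 ∈ 𝔟`, `a ∈ 𝔪` and
`q(a) ∈ (𝔟 + (a))^2` then `a ∈ 𝔟`. -/
theorem mem_of_eval_mem_sq (q : Polynomial A) (hq : IsUnit (q.coeff 1)) {a : A}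
    (ha : a ∈ IsLocalRing.maximalIdeal A) (𝔟 : Ideal A) (h0 : q.coeff 0 ∈ 𝔟)
    (hqa : q.eval a ∈ (𝔟 ⊔ Ideal.span {a}) ^ 2) : a ∈ 𝔟 := by
  obtain ⟨k, hk⟩ := Polynomial.binomExpansion q 0 a
  have hd0 : (Polynomial.derivative q).eval 0 = q.coeff 1 := by
    rw [← Polynomial.coeff_zero_eq_eval_zero, Polynomial.coeff_derivative]
    simp
  rw [zero_add, hd0, ← Polynomial.coeff_zero_eq_eval_zero] at hk
  -- `(𝔟 + (a))^2 ≤ 𝔟 + (a^2)`
  have hsq : (𝔟 ⊔ Ideal.span {a}) ^ 2 ≤ 𝔟 ⊔ Ideal.span {a ^ 2} := by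
    rw [pow_two, Ideal.sup_mul, Ideal.mul_sup, Ideal.mul_sup]
    refine sup_le (sup_le ?_ ?_) (sup_le ?_ ?_)
    · exact le_trans Ideal.mul_le_left le_sup_left
    · exact le_trans Ideal.mul_le_left le_sup_left
    · exact le_trans Ideal.mul_le_right le_sup_left
    · rw [Ideal.span_singleton_mul_span_singleton, ← pow_two]
      exact le_sup_right
  have h1 := hsq hqa
  rw [Submodule.mem_sup] at h1
  obtain ⟨β, hβ, γ, hγ, hsum⟩ := h1
  rw [Ideal.mem_span_singleton'] at hγ
  obtain ⟨s, rfl⟩ := hγ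
  -- `a * (c1 + k a - s a) = β - c0 ∈ 𝔟`
  set u := q.coeff 1 + k * a - s * a with hu
  have hmul : a * u ∈ 𝔟 := by
    have : a * u = β - q.coeff 0 := by
      rw [hu]
      linear_combination (-1 : A) * hk - hsum
    rw [this]
    exact sub_mem hβ h0
  have hu1 : u - q.coeff 1 ∈ IsLocalRing.maximalIdeal A := by
    have : u - q.coeff 1 = (k - s) * a := by rw [hu]; ring
    rw [this]
    exact Ideal.mul_mem_left _ _ ha
  have huu : IsUnit u := by
    by_contra hnu
    have hum : u ∈ IsLocalRing.maximalIdeal A := (IsLocalRing.mem_maximalIdeal u).mpr hnu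
    have : q.coeff 1 ∈ IsLocalRing.maximalIdeal A := by
      have := sub_mem hum hu1
      simpa using this
    exact (IsLocalRing.mem_maximalIdeal _).mp this hq
  obtain ⟨v, hv⟩ := huu.exists_right_inv
  have : a = a * u * v := by rw [mul_assoc, hv, mul_one]
  rw [this]
  exact Ideal.mul_mem_right _ _ hmul

/-! ### Small polynomials -/

/-- `F` is small of order `M`: `F(x) ∈ gauge(x)^M` on the polydisc. -/
def SmallPoly (𝔠 : Ideal A) (M : ℕ) (F : MvPolynomial ι A0) : Prop :=
  ∀ x : ι → A, InDisc x → aeval x F ∈ gauge 𝔠 x ^ M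

theorem SmallPoly.add {M : ℕ} {F G : MvPolynomial ι A0} (hF : SmallPoly 𝔠 M F) (hG : SmallPoly 𝔠 M G) :
    SmallPoly 𝔠 M (F + G) := fun x hx => by
  rw [map_add]; exact add_mem (hF x hx) (hG x hx)

theorem SmallPoly.neg {M : ℕ} {F : MvPolynomial ι A0} (hF : SmallPoly 𝔠 M F) :
    SmallPoly 𝔠 M (-F) := fun x hx => by
  rw [map_neg]; exact neg_mem (hF x hx)

theorem SmallPoly.sub {M : ℕ} {F G : MvPolynomial ι A0} (hF : SmallPoly 𝔠 M F) (hG : SmallPoly 𝔠 M G) :
    SmallPoly 𝔠 M (F - G) := fun x hx => by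
  rw [map_sub]; exact sub_mem (hF x hx) (hG x hx)

theorem SmallPoly.mul_left {M : ℕ} {F : MvPolynomial ι A0} (hF : SmallPoly 𝔠 M F)
    (G : MvPolynomial ι A0) : SmallPoly 𝔠 M (G * F) := fun x hx => by
  rw [map_mul]; exact Ideal.mul_mem_left _ _ (hF x hx)

theorem SmallPoly.mul {M N : ℕ} {F G : MvPolynomial ι A0} (hF : SmallPoly 𝔠 M F)
    (hG : SmallPoly 𝔠 N G) : SmallPoly 𝔠 (M + N) (F * G) := fun x hx => by
  rw [map_mul, pow_add]; exact Ideal.mul_mem_mul (hF x hx) (hG x hx)

theorem SmallPoly.mono {M N : ℕ} {F : MvPolynomial ι A0} (hF : SmallPoly 𝔠 M F) (h : N ≤ M) :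
    SmallPoly 𝔠 N F := fun x hx => Ideal.pow_le_pow_right h (hF x hx)

theorem smallPoly_sub_constantCoeff (F : MvPolynomial ι A0) :
    SmallPoly 𝔠 1 (F - C (constantCoeff F)) := fun x _ => by
  rw [map_sub, aeval_C, pow_one]
  exact span_le_gauge 𝔠 x (aeval_sub_constantCoeff_mem A0 F x)

/-- **Formal Newton iteration.** -/
theorem exists_formal_root (Q : Polynomial (MvPolynomial ι A0)) (c : A0) (hc : IsUnit c)
    (h0 : SmallPoly 𝔠 1 (Q.coeff 0)) (h1 : SmallPoly 𝔠 1 (Q.coeff 1 - C c)) (m : ℕ) :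
    ∃ Ψ : MvPolynomial ι A0, SmallPoly 𝔠 1 Ψ ∧ SmallPoly 𝔠 (m + 1) (Q.eval Ψ) := by
  obtain ⟨d, hd⟩ := hc.exists_left_inv
  induction m with
  | zero =>
    refine ⟨0, fun x _ => by simp, ?_⟩
    rw [← Polynomial.coeff_zero_eq_eval_zero]
    exact h0
  | succ m ih =>
    obtain ⟨Ψ, hΨ1, hΨ⟩ := ih
    set h : MvPolynomial ι A0 := - (C d * Q.eval Ψ) with hh
    have hhs : SmallPoly 𝔠 (m + 1) h := (hΨ.mul_left _).neg
    refine ⟨Ψ + h, hΨ1.add (hhs.mono (by omega)), ?_⟩
    obtain ⟨k, hk⟩ := Polynomial.binomExpansion Q Ψ h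
    obtain ⟨z, hz⟩ := Polynomial.evalSubFactor (Polynomial.derivative Q) Ψ 0
    have hd0 : (Polynomial.derivative Q).eval 0 = Q.coeff 1 := by
      rw [← Polynomial.coeff_zero_eq_eval_zero, Polynomial.coeff_derivative]
      simp
    rw [sub_zero, hd0] at hz
    -- `C c - Q'(Ψ)` is small of order 1
    have hsm : SmallPoly 𝔠 1 (C c - (Polynomial.derivative Q).eval Ψ) := by
      have : C c - (Polynomial.derivative Q).eval Ψ = -(Q.coeff 1 - C c) - z * Ψ := by
        linear_combination (-1 : MvPolynomial ι A0) * hz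
      rw [this]
      exact h1.neg.sub (hΨ1.mul_left z)
    have hCC : (C d : MvPolynomial ι A0) * C c = 1 := by
      rw [← C_mul, hd, C_1]
    have key : Q.eval (Ψ + h) =
        Q.eval Ψ * (C d * (C c - (Polynomial.derivative Q).eval Ψ)) + k * (h * h) := by
      rw [hk, hh]
      linear_combination (-(Q.eval Ψ)) * hCC
    rw [key]
    refine SmallPoly.add ?_ ?_
    · exact hΨ.mul (hsm.mul_left _)
    · exact ((hhs.mul hhs).mono (by omega)).mul_left k

/-- **Newton, polynomial form**: for every order `M` there is a polynomial `P` over `A0` in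
`(r; x)` whose coefficient of `r^1` is a unit and of which `ψ x` is a root modulo
`gauge(ψ x; x)^M`, for every `x` of the polydisc. Then `ψ` is analytic. -/
theorem isAn_of_poly_roots {ψ : (ι → A) → A}
    (h𝔠 : 𝔠 ≤ IsLocalRing.maximalIdeal A)
    (hP : ∀ M : ℕ, ∃ P : MvPolynomial (Option ι) A0,
      IsUnit (coeff (Finsupp.single none 1) P) ∧
      ∀ x, InDisc x → aeval (ocons (ψ x) x) P ∈ gauge 𝔠 (ocons (ψ x) x) ^ M)
    (hψm : ∀ x, InDisc x → ψ x ∈ IsLocalRing.maximalIdeal A)
    (hψ0 : ψ 0 ∈ 𝔠) : IsAn A0 𝔠 ψ := by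
  intro M
  obtain ⟨P, hc, hP⟩ := hP (M + 2)
  set Q := optionEquivLeft A0 ι P with hQ
  set c := coeff (Finsupp.single none 1) P with hcdef
  have hc1 : constantCoeff (Q.coeff 1) = c := by
    have := optionEquivLeft_coeff_some_coeff_none A0 ι (Finsupp.single none 1) P
    rw [Finsupp.single_eq_same] at this
    have hs : (Finsupp.single (none : Option ι) 1).some = 0 := by
      ext i; simp
    rw [hs] at this
    exact this
  have hc0 : constantCoeff (Q.coeff 0) = constantCoeff P := by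
    have := optionEquivLeft_coeff_some_coeff_none A0 ι (0 : Option ι →₀ ℕ) P
    rw [constantCoeff_eq, constantCoeff_eq]
    simpa using this
  -- the constant coefficient of `P` lies in `𝔠`
  have hP0 : algebraMap A0 A (constantCoeff P) ∈ 𝔠 := by
    have hpt : InDisc (ocons (ψ 0) (0 : ι → A)) :=
      inDisc_ocons (hψm 0 inDisc_zero) inDisc_zero
    have hg : gauge 𝔠 (ocons (ψ 0) (0 : ι → A)) ≤ 𝔠 :=
      gauge_ocons_le _ _ _ hψ0 (by rw [gauge_zero])
    have h1 : aeval (ocons (ψ 0) (0 : ι → A)) P ∈ 𝔠 :=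
      hg (Ideal.pow_le_self (by omega) (hP 0 inDisc_zero))
    have h2 := span_le_gauge 𝔠 _ (aeval_sub_constantCoeff_mem A0 P (ocons (ψ 0) (0 : ι → A)))
    have := sub_mem h1 (hg h2)
    simpa using this
  have h0 : SmallPoly 𝔠 1 (Q.coeff 0) := by
    have h := smallPoly_sub_constantCoeff (𝔠 := 𝔠) (Q.coeff 0)
    intro x hx
    have h' := h x hx
    rw [map_sub, aeval_C, hc0] at h'
    have := add_mem h' (Ideal.pow_right_mono (le_gauge 𝔠 x) 1 (by simpa using hP0))
    simpa using this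
  have h1 : SmallPoly 𝔠 1 (Q.coeff 1 - C c) := by
    have := smallPoly_sub_constantCoeff (𝔠 := 𝔠) (Q.coeff 1)
    rwa [hc1] at this
  obtain ⟨Ψ, hΨ1, hΨ⟩ := exists_formal_root Q c hc h0 h1 (M + 1)
  refine ⟨Ψ, fun x hx => ?_⟩
  -- the polynomial `q = Q(x)` over `A`
  set φ : MvPolynomial ι A0 →+* A := (aeval x : MvPolynomial ι A0 →ₐ[A0] A).toRingHom with hφ
  set q : Polynomial A := Polynomial.map φ Q with hq
  have hqeval : ∀ r : A, aeval (ocons r x) P = q.eval r := fun r => aeval_ocons P r x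
  have hgm : gauge 𝔠 x ≤ IsLocalRing.maximalIdeal A := gauge_le_maximalIdeal 𝔠 h𝔠 x hx
  have hq1 : IsUnit (q.coeff 1) := by
    rw [hq, Polynomial.coeff_map]
    have hmem : φ (Q.coeff 1) - algebraMap A0 A c ∈ IsLocalRing.maximalIdeal A := by
      have := h1 x hx
      rw [map_sub, aeval_C, pow_one] at this
      exact hgm this
    by_contra hnu
    have hum : φ (Q.coeff 1) ∈ IsLocalRing.maximalIdeal A :=
      (IsLocalRing.mem_maximalIdeal _).mpr hnu
    have : algebraMap A0 A c ∈ IsLocalRing.maximalIdeal A := by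
      have := sub_mem hum hmem
      simpa using this
    exact (IsLocalRing.mem_maximalIdeal _).mp this (hc.map _)
  have hq0 : q.coeff 0 ∈ gauge 𝔠 x := by
    rw [hq, Polynomial.coeff_map]
    have := h0 x hx
    rwa [pow_one] at this
  have hψx : ψ x ∈ IsLocalRing.maximalIdeal A := hψm x hx
  -- `q (ψ x)` is small
  have hqψ : q.eval (ψ x) ∈ gauge 𝔠 (ocons (ψ x) x) ^ (M + 2) := by
    have := hP x hx
    rwa [hqeval] at this
  -- first step: `ψ x ∈ gauge x`
  have hψg : ψ x ∈ gauge 𝔠 x := by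
    refine mem_of_eval_mem_sq q hq1 hψx (gauge 𝔠 x) hq0 ?_
    have h2 : gauge 𝔠 (ocons (ψ x) x) ^ (M + 2) ≤ (gauge 𝔠 x ⊔ Ideal.span {ψ x}) ^ 2 :=
      le_trans (Ideal.pow_le_pow_right (by omega)) (Ideal.pow_right_mono (gauge_ocons_le_sup _ _) 2)
    exact h2 hqψ
  have hqψ' : q.eval (ψ x) ∈ gauge 𝔠 x ^ (M + 2) :=
    Ideal.pow_right_mono (gauge_ocons_le _ _ _ hψg le_rfl) _ hqψ
  -- `q (Ψ x)` is small
  have hΨx : aeval x Ψ ∈ gauge 𝔠 x := by
    have := hΨ1 x hx
    rwa [pow_one] at this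
  have hqΨ : q.eval (aeval x Ψ) ∈ gauge 𝔠 x ^ (M + 2) := by
    have := hΨ x hx
    have h3 : q.eval (aeval x Ψ) = aeval x (Q.eval Ψ) := by
      rw [hq]
      exact Polynomial.eval_map_apply φ Ψ
    rw [h3]
    exact this
  have := sub_mem_of_eval_mem q hq1 hψx (hgm hΨx) _ hqψ' hqΨ
  exact Ideal.pow_le_pow_right (by omega) this

/-- **Implicit function theorem, core form**: every order has an approximant of `S` whose
coefficient of `r^1` is a unit of `A0`. -/
theorem IsAn.implicit_core {S : (Option ι → A) → A} {ψ : (ι → A) → A}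
    (h𝔠 : 𝔠 ≤ IsLocalRing.maximalIdeal A)
    (hS : ∀ M : ℕ, ∃ P : MvPolynomial (Option ι) A0, ApproxAt A0 𝔠 S M P ∧
      IsUnit (coeff (Finsupp.single none 1) P))
    (hψm : ∀ x, InDisc x → ψ x ∈ IsLocalRing.maximalIdeal A)
    (hroot : ∀ x, InDisc x → S (ocons (ψ x) x) = 0)
    (hψ0 : ψ 0 ∈ 𝔠) : IsAn A0 𝔠 ψ := by
  refine isAn_of_poly_roots h𝔠 (fun M => ?_) hψm hψ0
  obtain ⟨P, hP, hc⟩ := hS M
  refine ⟨P, hc, fun x hx => ?_⟩
  have := hP (ocons (ψ x) x) (inDisc_ocons (hψm x hx) hx)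
  rw [hroot x hx, zero_sub] at this
  have := neg_mem this
  simpa using this

end Fermat.Agent.S19lib.An
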