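/-
FF-An: the implicit function theorem in the form used by the geometric blocks:
nondegeneracy is stated on the function `S` itself (no approximants).
-/
import Fermat.Agent.S19lib.An.Newton

namespace Fermat.Agent.S19lib.An

open MvPolynomial

variable {A0 : Type*} {A : Type*} [CommRing A0] [CommRing A] [Algebra A0 A] [IsLocalRing A]
variable {𝔠 : Ideal A} {ι : Type*}

/-- In a local ring, an element congruent to a unit modulo `𝔪` is a unit. -/
theorem isUnit_of_sub_mem_maximalIdeal {a b : A} (ha : IsUnit a)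
    (hab : b - a ∈ IsLocalRing.maximalIdeal A) : IsUnit b := by
  by_contra hnu
  have hb : b ∈ IsLocalRing.maximalIdeal A := (IsLocalRing.mem_maximalIdeal b).mpr hnu
  have : a ∈ IsLocalRing.maximalIdeal A := by
    have := sub_mem hb hab
    simpa using this
  exact (IsLocalRing.mem_maximalIdeal _).mp this ha

omit [IsLocalRing A] in
/-- `(𝔟 + (a))^2 ≤ 𝔟 + (a^2)`. -/
theorem sup_span_sq_le (𝔟 : Ideal A) (a : A) :
    (𝔟 ⊔ Ideal.span {a}) ^ 2 ≤ 𝔟 ⊔ Ideal.span {a ^ 2} := by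
  rw [pow_two, Ideal.sup_mul, Ideal.mul_sup, Ideal.mul_sup]
  refine sup_le (sup_le ?_ ?_) (sup_le ?_ ?_)
  · exact le_trans Ideal.mul_le_left le_sup_left
  · exact le_trans Ideal.mul_le_left le_sup_left
  · exact le_trans Ideal.mul_le_right le_sup_left
  · rw [Ideal.span_singleton_mul_span_singleton, ← pow_two]
    exact le_sup_right

/-- Nondegeneracy of `S(·; 0)` at one point `r ∈ 𝔪 \ 𝔠` forces the coefficient of `r^1` of every
approximant of order `≥ 2` to be a unit. -/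
theorem ApproxAt.isUnit_coeff_of_nondeg [IsLocalRing A0] [IsLocalHom (algebraMap A0 A)]
    {S : (Option ι → A) → A} {M : ℕ} {P : MvPolynomial (Option ι) A0}
    (hP : ApproxAt A0 𝔠 S M P) (hM : 2 ≤ M) {r : A} (hr : r ∈ IsLocalRing.maximalIdeal A)
    (hr𝔠 : r ∉ 𝔠) {c : A} (hc : IsUnit c)
    (hnd : S (ocons r (0 : ι → A)) - S (ocons 0 (0 : ι → A)) - c * r ∈ Ideal.span {r ^ 2} ⊔ 𝔠) :
    IsUnit (coeff (Finsupp.single none 1) P) := by
  set Q := optionEquivLeft A0 ι P with hQ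
  set c1 := coeff (Finsupp.single none 1) P with hc1def
  have hc1 : constantCoeff (Q.coeff 1) = c1 := by
    have := optionEquivLeft_coeff_some_coeff_none A0 ι (Finsupp.single none 1) P
    rw [Finsupp.single_eq_same] at this
    have hs : (Finsupp.single (none : Option ι) 1).some = 0 := by
      ext i; simp
    rw [hs] at this
    exact this
  set φ : MvPolynomial ι A0 →+* A :=
    (MvPolynomial.aeval (0 : ι → A) : MvPolynomial ι A0 →ₐ[A0] A).toRingHom with hφ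
  set q : Polynomial A := Polynomial.map φ Q with hq
  have hqeval : ∀ t : A, MvPolynomial.aeval (ocons t (0 : ι → A)) P = q.eval t :=
    fun t => aeval_ocons P t 0
  have hq1 : q.coeff 1 = algebraMap A0 A c1 := by
    rw [hq, Polynomial.coeff_map, ← hc1]
    change MvPolynomial.aeval (0 : ι → A) (Q.coeff 1) = _
    rw [← MvPolynomial.aeval_zero]
  apply isUnit_of_map_unit (algebraMap A0 A)
  rw [← hq1]
  by_contra hnu
  have hq1m : q.coeff 1 ∈ IsLocalRing.maximalIdeal A := (IsLocalRing.mem_maximalIdeal _).mpr hnu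
  -- `u := q.coeff 1 - c` is a unit
  have hu : IsUnit (q.coeff 1 - c) := by
    have h1 : IsUnit (-c) := hc.neg
    refine isUnit_of_sub_mem_maximalIdeal h1 ?_
    have : q.coeff 1 - c - -c = q.coeff 1 := by ring
    rw [this]; exact hq1m
  obtain ⟨k, hk⟩ := Polynomial.binomExpansion q 0 r
  have hd0 : (Polynomial.derivative q).eval 0 = q.coeff 1 := by
    rw [← Polynomial.coeff_zero_eq_eval_zero, Polynomial.coeff_derivative]
    simp
  rw [zero_add, hd0] at hk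
  -- the three congruences
  have e1 : S (ocons r (0 : ι → A)) - q.eval r ∈ 𝔠 ⊔ Ideal.span {r ^ 2} := by
    have h := hP (ocons r 0) (inDisc_ocons hr inDisc_zero)
    rw [hqeval] at h
    have hg : gauge 𝔠 (ocons r (0 : ι → A)) ≤ 𝔠 ⊔ Ideal.span {r} :=
      gauge_ocons_le _ _ _ (Ideal.mem_sup_right (Ideal.subset_span rfl))
        (by rw [gauge_zero]; exact le_sup_left)
    exact sup_span_sq_le 𝔠 r
      (Ideal.pow_right_mono hg 2 (Ideal.pow_le_pow_right hM h))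
  have e2 : S (ocons 0 (0 : ι → A)) - q.eval 0 ∈ 𝔠 ⊔ Ideal.span {r ^ 2} := by
    have h := hP (ocons 0 0) (inDisc_ocons (by simp) inDisc_zero)
    rw [hqeval] at h
    have hg : gauge 𝔠 (ocons (0 : A) (0 : ι → A)) ≤ 𝔠 :=
      gauge_ocons_le _ _ _ (by simp) (by rw [gauge_zero])
    have h2 : gauge 𝔠 (ocons (0 : A) (0 : ι → A)) ^ M ≤ 𝔠 :=
      le_trans (Ideal.pow_le_pow_right (by omega : 1 ≤ M)) (by rw [pow_one]; exact hg)
    exact Ideal.mem_sup_left (h2 h)
  have e3 : S (ocons r (0 : ι → A)) - S (ocons 0 (0 : ι → A)) - c * r ∈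
      𝔠 ⊔ Ideal.span {r ^ 2} := by
    rw [sup_comm]; exact hnd
  have e4 : (q.coeff 1 - c) * r ∈ 𝔠 ⊔ Ideal.span {r ^ 2} := by
    have hkr : k * r ^ 2 ∈ 𝔠 ⊔ Ideal.span {r ^ 2} :=
      Ideal.mem_sup_right (Ideal.mul_mem_left _ _ (Ideal.subset_span rfl))
    have : (q.coeff 1 - c) * r =
        -(S (ocons r (0 : ι → A)) - q.eval r) + (S (ocons 0 (0 : ι → A)) - q.eval 0)
          + (S (ocons r (0 : ι → A)) - S (ocons 0 (0 : ι → A)) - c * r) - k * r ^ 2 := by
      linear_combination (-1 : A) * hk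
    rw [this]
    exact sub_mem (add_mem (add_mem (neg_mem e1) e2) e3) hkr
  rw [Submodule.mem_sup] at e4
  obtain ⟨γ, hγ, δ, hδ, hsum⟩ := e4
  rw [Ideal.mem_span_singleton'] at hδ
  obtain ⟨s, rfl⟩ := hδ
  -- `r * (u - s r) = γ ∈ 𝔠`
  have hu2 : IsUnit (q.coeff 1 - c - s * r) := by
    refine isUnit_of_sub_mem_maximalIdeal hu ?_
    have : q.coeff 1 - c - s * r - (q.coeff 1 - c) = -(s * r) := by ring
    rw [this]
    exact neg_mem (Ideal.mul_mem_left _ _ hr)
  have hmul : r * (q.coeff 1 - c - s * r) ∈ 𝔠 := by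
    have : r * (q.coeff 1 - c - s * r) = γ := by linear_combination -hsum
    rw [this]; exact hγ
  obtain ⟨v, hv⟩ := hu2.exists_right_inv
  apply hr𝔠
  have : r = r * (q.coeff 1 - c - s * r) * v := by rw [mul_assoc, hv, mul_one]
  rw [this]
  exact Ideal.mul_mem_right _ _ hmul

/-- **Implicit function theorem.** `S` analytic in `(r; x)`; `ψ x ∈ 𝔪` a root of `S(·; x)` for
every `x` of the polydisc, `ψ 0 ∈ 𝔠`; nondegeneracy at the centre: for one `r ∈ 𝔪 \ 𝔠`,
`S(r; 0) - S(0; 0) - c r ∈ (r^2) + 𝔠` with `c` a unit. Then `ψ` is analytic. -/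
theorem IsAn.implicit [IsLocalRing A0] [IsLocalHom (algebraMap A0 A)]
    {S : (Option ι → A) → A} (hS : IsAn A0 𝔠 S) {ψ : (ι → A) → A}
    (h𝔠 : 𝔠 ≤ IsLocalRing.maximalIdeal A)
    (hψm : ∀ x, InDisc x → ψ x ∈ IsLocalRing.maximalIdeal A)
    (hroot : ∀ x, InDisc x → S (ocons (ψ x) x) = 0)
    (hψ0 : ψ 0 ∈ 𝔠)
    (hnd : ∃ r ∈ IsLocalRing.maximalIdeal A, r ∉ 𝔠 ∧ ∃ c : A, IsUnit c ∧
      S (ocons r (0 : ι → A)) - S (ocons 0 (0 : ι → A)) - c * r ∈ Ideal.span {r ^ 2} ⊔ 𝔠) :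
    IsAn A0 𝔠 ψ := by
  obtain ⟨r, hr, hr𝔠, c, hc, hnd⟩ := hnd
  refine IsAn.implicit_core h𝔠 (fun M => ?_) hψm hroot hψ0
  obtain ⟨P, hP⟩ := hS (M + 2)
  exact ⟨P, hP.mono_order (by omega),
    hP.isUnit_coeff_of_nondeg (by omega) hr hr𝔠 hc hnd⟩

/-- **Newton, power series form**: `σ n` analytic (`n : ℕ`), `σ 1 0` a unit, and for every `M`
and every `x` of the polydisc `∑_{n<M} σ_n(x) ψ(x)^n ∈ (ψ(x)^M)`. Then `ψ` is analytic. -/
theorem isAn_of_series_roots [IsLocalRing A0] [IsLocalHom (algebraMap A0 A)]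
    {σ : ℕ → (ι → A) → A} (hσ : ∀ n, IsAn A0 𝔠 (σ n)) {ψ : (ι → A) → A}
    (h𝔠 : 𝔠 ≤ IsLocalRing.maximalIdeal A)
    (hψm : ∀ x, InDisc x → ψ x ∈ IsLocalRing.maximalIdeal A)
    (hψ0 : ψ 0 ∈ 𝔠) (hunit : IsUnit (σ 1 0))
    (hroot : ∀ M : ℕ, ∀ x, InDisc x →
      ∑ n ∈ Finset.range M, σ n x * ψ x ^ n ∈ Ideal.span {ψ x ^ M}) :
    IsAn A0 𝔠 ψ := by
  refine isAn_of_poly_roots h𝔠 (fun M0 => ?_) hψm hψ0
  set M := M0 + 2 with hM
  choose Q hQ using fun n => hσ n M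
  set Qp : Polynomial (MvPolynomial ι A0) :=
    ∑ n ∈ Finset.range M, Polynomial.C (Q n) * Polynomial.X ^ n with hQp
  set P : MvPolynomial (Option ι) A0 := (optionEquivLeft A0 ι).symm Qp with hP
  have hPQ : optionEquivLeft A0 ι P = Qp := by rw [hP, AlgEquiv.apply_symm_apply]
  have hcoeff1 : Qp.coeff 1 = Q 1 := by
    rw [hQp, Polynomial.finsetSum_coeff]
    simp only [Polynomial.coeff_C_mul, Polynomial.coeff_X_pow]
    rw [Finset.sum_eq_single 1]
    · simp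
    · intro n _ hn
      rw [if_neg (fun h => hn h.symm), mul_zero]
    · intro h
      exact absurd (Finset.mem_range.mpr (by omega)) h
  refine ⟨P, ?_, fun x hx => ?_⟩
  · -- the coefficient of `r^1` is `constantCoeff (Q 1)`, congruent to `σ 1 0` modulo `𝔠`
    have h1 := optionEquivLeft_coeff_some_coeff_none A0 ι (Finsupp.single none 1) P
    rw [Finsupp.single_eq_same] at h1
    have hs : (Finsupp.single (none : Option ι) 1).some = 0 := by
      ext i; simp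
    rw [hs, hPQ, hcoeff1] at h1
    rw [← h1, ← constantCoeff_eq]
    apply isUnit_of_map_unit (algebraMap A0 A)
    refine isUnit_of_sub_mem_maximalIdeal hunit ?_
    have := (hQ 1).zero_sub_constantCoeff_mem (by omega)
    have := neg_mem (h𝔠 this)
    simpa using this
  · -- `P(ψ x; x) = ∑ Q_n(x) ψ(x)^n`
    have hev : aeval (ocons (ψ x) x) P =
        ∑ n ∈ Finset.range M, aeval x (Q n) * ψ x ^ n := by
      rw [aeval_ocons, hPQ, hQp, Polynomial.map_sum, Polynomial.eval_finsetSum]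
      refine Finset.sum_congr rfl (fun n _ => ?_)
      rw [Polynomial.map_mul, Polynomial.map_C, Polynomial.map_pow, Polynomial.map_X,
        Polynomial.eval_mul, Polynomial.eval_C, Polynomial.eval_pow, Polynomial.eval_X]
      rfl
    rw [hev]
    have hle : gauge 𝔠 x ≤ gauge 𝔠 (ocons (ψ x) x) := by
      refine gauge_le_gauge 𝔠 _ _ (fun i => ?_)
      exact coord_mem_gauge 𝔠 (ocons (ψ x) x) (some i)
    have h2 : ∑ n ∈ Finset.range M, aeval x (Q n) * ψ x ^ n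
          - ∑ n ∈ Finset.range M, σ n x * ψ x ^ n ∈ gauge 𝔠 (ocons (ψ x) x) ^ M := by
      rw [← Finset.sum_sub_distrib]
      refine Ideal.sum_mem _ (fun n _ => ?_)
      have h3 := hQ n x hx
      have h4 : aeval x (Q n) * ψ x ^ n - σ n x * ψ x ^ n = -(σ n x - aeval x (Q n)) * ψ x ^ n := by
        ring
      rw [h4]
      exact Ideal.mul_mem_right _ _ (neg_mem (Ideal.pow_right_mono hle M h3))
    have h5 : ∑ n ∈ Finset.range M, σ n x * ψ x ^ n ∈ gauge 𝔠 (ocons (ψ x) x) ^ M := by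
      have h6 := hroot M x hx
      rw [Ideal.mem_span_singleton'] at h6
      obtain ⟨a, ha⟩ := h6
      rw [← ha]
      exact Ideal.mul_mem_left _ _
        (Ideal.pow_mem_pow (coord_mem_gauge 𝔠 (ocons (ψ x) x) none) M)
    have := add_mem h2 h5
    have h7 : gauge 𝔠 (ocons (ψ x) x) ^ M ≤ gauge 𝔠 (ocons (ψ x) x) ^ M0 :=
      Ideal.pow_le_pow_right (by omega)
    apply h7
    simpa using this

/-! ### Variants under the standing hypothesis `𝔪 ∩ A0 ⊆ 𝔠` -/

/-- The standing hypothesis `𝔪 ∩ A0 ⊆ 𝔠` (for `𝔠 = l·A`, `A0` a discrete valuation ring with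
uniformizer `l`, unramified in `A`). -/
def ConstIdeal (A0 : Type*) {A : Type*} [CommRing A0] [CommRing A] [Algebra A0 A] [IsLocalRing A]
    (𝔠 : Ideal A) : Prop :=
  𝔠 ≤ IsLocalRing.maximalIdeal A ∧
    ∀ a : A0, algebraMap A0 A a ∈ IsLocalRing.maximalIdeal A → algebraMap A0 A a ∈ 𝔠

/-- Under `ConstIdeal`, an analytic function with `f 0 ∈ 𝔪` has `f 0 ∈ 𝔠`. -/
theorem IsAn.zero_mem_of_constIdeal (h𝔠 : ConstIdeal A0 𝔠) {f : (ι → A) → A}
    (hf : IsAn A0 𝔠 f) (h0 : f 0 ∈ IsLocalRing.maximalIdeal A) : f 0 ∈ 𝔠 := by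
  obtain ⟨P, hP⟩ := hf 1
  have h1 := hP.zero_sub_constantCoeff_mem le_rfl
  have h2 : algebraMap A0 A (constantCoeff P) ∈ IsLocalRing.maximalIdeal A := by
    have := sub_mem h0 (h𝔠.1 h1)
    simpa using this
  have := add_mem h1 (h𝔠.2 _ h2)
  simpa using this

/-- Composition under `ConstIdeal`: no condition at the centre. -/
theorem IsAn.comp' {κ : Type*} (h𝔠 : ConstIdeal A0 𝔠) {f : (κ → A) → A}
    {g : κ → (ι → A) → A} (hf : IsAn A0 𝔠 f) (hg : ∀ k, IsAn A0 𝔠 (g k))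
    (hgm : ∀ k x, InDisc x → g k x ∈ IsLocalRing.maximalIdeal A) :
    IsAn A0 𝔠 (fun x => f (fun k => g k x)) :=
  hf.comp hg hgm (fun k => (hg k).zero_mem_of_constIdeal h𝔠 (hgm k 0 inDisc_zero))

/-- Under `ConstIdeal`, a root in `𝔪` of `S(·; 0)` lies in `𝔠`, provided the coefficient of `r^1`
of some approximant of order `≥ 2` is a unit. -/
theorem ApproxAt.root_zero_mem (h𝔠 : ConstIdeal A0 𝔠) {S : (Option ι → A) → A} {M : ℕ}
    {P : MvPolynomial (Option ι) A0} (hP : ApproxAt A0 𝔠 S M P) (hM : 2 ≤ M)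
    (hc : IsUnit (coeff (Finsupp.single none 1) P)) {r0 : A}
    (hr0 : r0 ∈ IsLocalRing.maximalIdeal A) (hroot : S (ocons r0 (0 : ι → A)) = 0) :
    r0 ∈ 𝔠 := by
  set Q := optionEquivLeft A0 ι P with hQ
  set c1 := coeff (Finsupp.single none 1) P with hc1def
  have hc1 : constantCoeff (Q.coeff 1) = c1 := by
    have := optionEquivLeft_coeff_some_coeff_none A0 ι (Finsupp.single none 1) P
    rw [Finsupp.single_eq_same] at this
    have hs : (Finsupp.single (none : Option ι) 1).some = 0 := by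
      ext i; simp
    rw [hs] at this
    exact this
  set φ : MvPolynomial ι A0 →+* A :=
    (MvPolynomial.aeval (0 : ι → A) : MvPolynomial ι A0 →ₐ[A0] A).toRingHom with hφ
  set q : Polynomial A := Polynomial.map φ Q with hq
  have hqeval : ∀ t : A, MvPolynomial.aeval (ocons t (0 : ι → A)) P = q.eval t :=
    fun t => aeval_ocons P t 0
  have hφ0 : ∀ F : MvPolynomial ι A0, φ F = algebraMap A0 A (constantCoeff F) := by
    intro F
    change MvPolynomial.aeval (0 : ι → A) F = _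
    rw [← MvPolynomial.aeval_zero]
  have hq1 : IsUnit (q.coeff 1) := by
    rw [hq, Polynomial.coeff_map, hφ0, hc1]
    exact hc.map _
  -- `q r0 ∈ (𝔠 + (r0))^2`
  have hqr : q.eval r0 ∈ (𝔠 ⊔ Ideal.span {r0}) ^ 2 := by
    have h := hP (ocons r0 0) (inDisc_ocons hr0 inDisc_zero)
    rw [hroot, zero_sub, hqeval] at h
    have h := neg_mem h
    rw [neg_neg] at h
    have hg : gauge 𝔠 (ocons r0 (0 : ι → A)) ≤ 𝔠 ⊔ Ideal.span {r0} :=
      gauge_ocons_le _ _ _ (Ideal.mem_sup_right (Ideal.subset_span rfl))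
        (by rw [gauge_zero]; exact le_sup_left)
    exact Ideal.pow_right_mono hg 2 (Ideal.pow_le_pow_right hM h)
  have hJm : 𝔠 ⊔ Ideal.span {r0} ≤ IsLocalRing.maximalIdeal A :=
    sup_le h𝔠.1 (by rw [Ideal.span_le]; simpa using hr0)
  -- the constant coefficient lies in `𝔪`, hence in `𝔠`
  have hq0 : q.coeff 0 ∈ 𝔠 := by
    have hq0' : q.coeff 0 = algebraMap A0 A (constantCoeff (Q.coeff 0)) := by
      rw [hq, Polynomial.coeff_map, hφ0]
    rw [hq0']
    apply h𝔠.2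
    rw [← hq0']
    obtain ⟨z, hz⟩ := Polynomial.evalSubFactor q r0 0
    rw [sub_zero, ← Polynomial.coeff_zero_eq_eval_zero] at hz
    have h1 : q.eval r0 ∈ IsLocalRing.maximalIdeal A := by
      have : (𝔠 ⊔ Ideal.span {r0}) ^ 2 ≤ 𝔠 ⊔ Ideal.span {r0} := by
        have := Ideal.pow_le_pow_right (I := 𝔠 ⊔ Ideal.span {r0}) (by omega : 1 ≤ 2)
        rwa [pow_one] at this
      exact hJm (this hqr)
    have : q.coeff 0 = q.eval r0 - z * r0 := by rw [← hz]; ring
    rw [this]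
    exact sub_mem h1 (Ideal.mul_mem_left _ _ hr0)
  exact mem_of_eval_mem_sq q hq1 hr0 𝔠 hq0 hqr

/-- **Implicit function theorem under `ConstIdeal`**: no condition on `ψ 0`. -/
theorem IsAn.implicit' [IsLocalRing A0] [IsLocalHom (algebraMap A0 A)]
    (h𝔠 : ConstIdeal A0 𝔠) {S : (Option ι → A) → A} (hS : IsAn A0 𝔠 S) {ψ : (ι → A) → A}
    (hψm : ∀ x, InDisc x → ψ x ∈ IsLocalRing.maximalIdeal A)
    (hroot : ∀ x, InDisc x → S (ocons (ψ x) x) = 0)
    (hnd : ∃ r ∈ IsLocalRing.maximalIdeal A, r ∉ 𝔠 ∧ ∃ c : A, IsUnit c ∧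
      S (ocons r (0 : ι → A)) - S (ocons 0 (0 : ι → A)) - c * r ∈ Ideal.span {r ^ 2} ⊔ 𝔠) :
    IsAn A0 𝔠 ψ := by
  refine IsAn.implicit hS h𝔠.1 hψm hroot ?_ hnd
  obtain ⟨r, hr, hr𝔠, c, hc, hnd⟩ := hnd
  obtain ⟨P, hP⟩ := hS 2
  exact hP.root_zero_mem h𝔠 le_rfl (hP.isUnit_coeff_of_nondeg le_rfl hr hr𝔠 hc hnd)
    (hψm 0 inDisc_zero) (hroot 0 inDisc_zero)

end Fermat.Agent.S19lib.An
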