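/-
FF-An: truncation. On a finite set of points of the polydisc an analytic function coincides with
a polynomial over `A0` modulo `J^e`, as soon as `𝔠 ≤ J` and every element of `𝔪` is nilpotent
modulo `J`.
-/
import Fermat.Agent.S19lib.An.Comp

namespace Fermat.Agent.S19lib.An

open MvPolynomial

variable {A0 : Type*} {A : Type*} [CommRing A0] [CommRing A] [Algebra A0 A] [IsLocalRing A]
variable {𝔠 : Ideal A} {ι : Type*}

/-- For a point of a finite-dimensional polydisc some power of the gauge lies in `J`. -/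
theorem exists_gauge_pow_le [Finite ι] (J : Ideal A) (h𝔠J : 𝔠 ≤ J)
    (hnil : ∀ a ∈ IsLocalRing.maximalIdeal A, ∃ m : ℕ, a ^ m ∈ J)
    (x : ι → A) (hx : InDisc x) : ∃ N : ℕ, gauge 𝔠 x ^ N ≤ J := by
  have hfg : (Ideal.span (Set.range x)).FG := ⟨(Set.finite_range x).toFinset, by simp⟩
  have hrad : Ideal.span (Set.range x) ≤ J.radical := by
    rw [Ideal.span_le]
    rintro _ ⟨i, rfl⟩
    exact hnil (x i) (hx i)
  obtain ⟨n, hn⟩ := Ideal.exists_pow_le_of_le_radical_of_fg hrad hfg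
  refine ⟨n + 1, ?_⟩
  unfold gauge
  refine le_trans Ideal.sup_pow_add_le_pow_sup_pow (sup_le hn ?_)
  rw [pow_one]; exact h𝔠J

/-- Uniform version on a finite set of points. -/
theorem exists_gauge_pow_le_of_finite [Finite ι] (J : Ideal A) (h𝔠J : 𝔠 ≤ J)
    (hnil : ∀ a ∈ IsLocalRing.maximalIdeal A, ∃ m : ℕ, a ^ m ∈ J)
    (T : Set (ι → A)) (hT : T.Finite) (hTd : ∀ x ∈ T, InDisc x) :
    ∃ N : ℕ, ∀ x ∈ T, gauge 𝔠 x ^ N ≤ J := by
  induction T, hT using Set.Finite.induction_on with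
  | empty => exact ⟨0, fun x hx => absurd hx (Set.notMem_empty x)⟩
  | @insert a T ha hT ih =>
    obtain ⟨N, hN⟩ := ih (fun x hx => hTd x (Set.mem_insert_of_mem a hx))
    obtain ⟨N', hN'⟩ := exists_gauge_pow_le (𝔠 := 𝔠) J h𝔠J hnil a (hTd a (Set.mem_insert a T))
    refine ⟨N + N', fun x hx => ?_⟩
    rcases Set.mem_insert_iff.mp hx with rfl | hx
    · exact le_trans (Ideal.pow_le_pow_right (by omega)) hN'
    · exact le_trans (Ideal.pow_le_pow_right (by omega)) (hN x hx)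

/-- **Truncation.** -/
theorem IsAn.exists_approx_on_finite [Finite ι] {f : (ι → A) → A} (hf : IsAn A0 𝔠 f)
    (J : Ideal A) (h𝔠J : 𝔠 ≤ J)
    (hnil : ∀ a ∈ IsLocalRing.maximalIdeal A, ∃ m : ℕ, a ^ m ∈ J)
    (T : Set (ι → A)) (hT : T.Finite) (hTd : ∀ x ∈ T, InDisc x) (e : ℕ) :
    ∃ P : MvPolynomial ι A0, ∀ x ∈ T, f x - aeval x P ∈ J ^ e := by
  obtain ⟨N, hN⟩ := exists_gauge_pow_le_of_finite (𝔠 := 𝔠) J h𝔠J hnil T hT hTd
  obtain ⟨P, hP⟩ := hf (N * e)
  refine ⟨P, fun x hx => ?_⟩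
  have h1 := hP x (hTd x hx)
  rw [pow_mul] at h1
  exact Ideal.pow_right_mono (hN x hx) e h1

/-- Truncation for finitely many analytic functions at once (same finite set of points). -/
theorem exists_approx_on_finite_family [Finite ι] {κ : Type*} {f : κ → (ι → A) → A}
    (hf : ∀ k, IsAn A0 𝔠 (f k)) (J : Ideal A) (h𝔠J : 𝔠 ≤ J)
    (hnil : ∀ a ∈ IsLocalRing.maximalIdeal A, ∃ m : ℕ, a ^ m ∈ J)
    (T : Set (ι → A)) (hT : T.Finite) (hTd : ∀ x ∈ T, InDisc x) (e : ℕ) :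
    ∃ P : κ → MvPolynomial ι A0, ∀ k, ∀ x ∈ T, f k x - aeval x (P k) ∈ J ^ e := by
  choose P hP using fun k => (hf k).exists_approx_on_finite J h𝔠J hnil T hT hTd e
  exact ⟨P, hP⟩

end Fermat.Agent.S19lib.An
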