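/-
FF-An: gauge ideals in a valuation subring, in terms of the valuation.
-/
import Fermat.Agent.S19lib.An.Basic

namespace Fermat.Agent.S19lib.An

variable {L : Type*} [Field L] (A : ValuationSubring L)

/-- the ideal `{a | v a ≤ c}` of `A` -/
def ballIdeal (c : A.ValueGroup) : Ideal A where
  carrier := {a | A.valuation (a : L) ≤ c}
  add_mem' := by
    intro a b ha hb
    simp only [Set.mem_ofPred_eq] at ha hb ⊢
    rw [show ((a + b : A) : L) = (a : L) + (b : L) from rfl]
    exact le_trans (A.valuation.map_add _ _) (max_le ha hb)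
  zero_mem' := by
    simp only [Set.mem_ofPred_eq]
    rw [show ((0 : A) : L) = 0 from rfl, map_zero]
    exact zero_le
  smul_mem' := by
    intro r a ha
    simp only [Set.mem_ofPred_eq, smul_eq_mul] at ha ⊢
    rw [show ((r * a : A) : L) = (r : L) * (a : L) from rfl, map_mul]
    calc A.valuation (r : L) * A.valuation (a : L) ≤ 1 * c :=
          mul_le_mul' (A.valuation_le_one r) ha
      _ = c := one_mul c

theorem mem_ballIdeal (c : A.ValueGroup) (a : A) :
    a ∈ ballIdeal A c ↔ A.valuation (a : L) ≤ c := Iff.rfl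

theorem ballIdeal_mul_le (c d : A.ValueGroup) :
    ballIdeal A c * ballIdeal A d ≤ ballIdeal A (c * d) := by
  rw [Ideal.mul_le]
  intro r hr s hs
  rw [mem_ballIdeal] at hr hs ⊢
  rw [show ((r * s : A) : L) = (r : L) * (s : L) from rfl, map_mul]
  exact mul_le_mul' hr hs

theorem ballIdeal_pow_le (c : A.ValueGroup) (M : ℕ) :
    ballIdeal A c ^ M ≤ ballIdeal A (c ^ M) := by
  induction M with
  | zero =>
    intro a _
    rw [mem_ballIdeal, pow_zero]
    exact A.valuation_le_one a
  | succ M ih =>
    rw [pow_succ, pow_succ]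
    exact le_trans (Ideal.mul_mono_left ih) (ballIdeal_mul_le A _ _)

/-- If every generator has valuation `≤ c`, every element of the `M`-th power of the ideal has
valuation `≤ c^M`. -/
theorem valuation_le_of_mem_span_pow {α : Type*} (g : α → A) (c : A.ValueGroup)
    (hg : ∀ j, A.valuation (g j : L) ≤ c) (M : ℕ) {d : A}
    (hd : d ∈ Ideal.span (Set.range g) ^ M) : A.valuation (d : L) ≤ c ^ M := by
  have h1 : Ideal.span (Set.range g) ≤ ballIdeal A c := by
    rw [Ideal.span_le]
    rintro _ ⟨j, rfl⟩
    exact hg j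
  exact ballIdeal_pow_le A c M (Ideal.pow_right_mono h1 M hd)

/-- Conversely, for a finite nonempty family of generators: if `v d ≤ c^M` for every bound `c`
of the valuations of the generators then `d` lies in the `M`-th power of the ideal. -/
theorem mem_span_pow_of_valuation_le {α : Type*} [Finite α] [Nonempty α] (g : α → A) (M : ℕ)
    {d : A} (hd : ∀ c : A.ValueGroup, (∀ j, A.valuation (g j : L) ≤ c) →
      A.valuation (d : L) ≤ c ^ M) : d ∈ Ideal.span (Set.range g) ^ M := by
  obtain ⟨j0, hj0⟩ := Finite.exists_max (fun j => A.valuation (g j : L))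
  have h1 := hd _ hj0
  rw [← map_pow, A.valuation_le_iff] at h1
  obtain ⟨a, ha⟩ := h1
  have h2 : d = a * g j0 ^ M := by
    apply Subtype.ext
    rw [← ha]
    rfl
  rw [h2]
  have hmem : g j0 ∈ Ideal.span (Set.range g) := Ideal.subset_span ⟨j0, rfl⟩
  exact Ideal.mul_mem_left _ _ (Ideal.pow_mem_pow hmem M)

/-- **Gauge powers through the valuation** (finite index type). -/
theorem mem_gauge_pow_iff {ι : Type*} [Finite ι] (ϖ : A) (x : ι → A) (M : ℕ) (d : A) :
    d ∈ gauge (Ideal.span {ϖ}) x ^ M ↔
      ∀ c : A.ValueGroup, A.valuation (ϖ : L) ≤ c → (∀ i, A.valuation (x i : L) ≤ c) →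
        A.valuation (d : L) ≤ c ^ M := by
  -- the gauge is the span of the family `Option ι → A`, `none ↦ ϖ`, `some i ↦ x i`
  have hg : gauge (Ideal.span {ϖ}) x =
      Ideal.span (Set.range (fun o : Option ι => Option.elim o ϖ x)) := by
    unfold gauge
    apply le_antisymm
    · refine sup_le ?_ ?_
      · rw [Ideal.span_le]
        rintro _ ⟨i, rfl⟩
        exact Ideal.subset_span ⟨some i, rfl⟩
      · rw [Ideal.span_le]
        rintro _ rfl
        exact Ideal.subset_span ⟨none, rfl⟩
    · rw [Ideal.span_le]
      rintro _ ⟨o, rfl⟩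
      cases o with
      | none => exact Ideal.mem_sup_right (Ideal.subset_span rfl)
      | some i => exact Ideal.mem_sup_left (Ideal.subset_span ⟨i, rfl⟩)
  rw [hg]
  constructor
  · intro hd c hc hx
    refine valuation_le_of_mem_span_pow A _ c (fun o => ?_) M hd
    cases o with
    | none => exact hc
    | some i => exact hx i
  · intro hd
    refine mem_span_pow_of_valuation_le A _ M (fun c hc => ?_)
    exact hd c (hc none) (fun i => hc (some i))

end Fermat.Agent.S19lib.An
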