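/-
FF-An: bridge between the interface notion `AnalyticOn A R ϖ` (functions `(ι → L) → L`, valuation
subring `A` of a field `L`, coefficient subring `R ≤ A`, error `SmallAt`) and the abstract notion
`IsAn R (span {ϖ})` (functions `(ι → A) → A`, error in powers of the gauge ideal).
-/
import Fermat.Agent.S19lib.An.Defs
import Fermat.Agent.S19lib.An.Val
import Fermat.Agent.S19lib.An.Implicit
import Fermat.Agent.S19lib.An.Trunc

namespace Fermat.Agent.S19lib.An

open MvPolynomial

variable {L : Type*} [Field L] (A : ValuationSubring L) (R : Subring L)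

/-- the inclusion `R → A` -/
def incl (hR : R ≤ A.toSubring) : R →+* A where
  toFun r := ⟨(r : L), hR r.2⟩
  map_one' := rfl
  map_mul' _ _ := rfl
  map_zero' := rfl
  map_add' _ _ := rfl

/-- the algebra structure `R → A` coming from an inclusion given as a `Fact` -/
@[reducible] def algOfFact [h : Fact (R ≤ A.toSubring)] : Algebra R A :=
  (incl A R h.out).toAlgebra

attribute [local instance] algOfFact

theorem coe_algebraMap [Fact (R ≤ A.toSubring)] (r : R) :
    ((algebraMap R A r : A) : L) = (r : L) := rfl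

variable {ι : Type*}

/-- the point of `L^ι` underlying a point of `A^ι` -/
def up (x : ι → A) : ι → L := fun i => (x i : L)

/-- restriction of a function `(ι → L) → L` to `A` (value `0` where the value is not in `A`) -/
noncomputable def res (f : (ι → L) → L) : (ι → A) → A := fun x =>
  open Classical in if h : f (up A x) ∈ A then ⟨f (up A x), h⟩ else 0

theorem coe_res {f : (ι → L) → L} {x : ι → A} (h : f (up A x) ∈ A) :
    ((res A f x : A) : L) = f (up A x) := by
  unfold res
  rw [dif_pos h]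

theorem inDisc_iff (x : ι → A) : InDisc x ↔ up A x ∈ PolyDisc A ι := by
  unfold InDisc PolyDisc
  simp only [Set.mem_ofPred_eq]
  exact forall_congr' (fun i => A.valuation_lt_one_iff (x i))

/-- every point of the polydisc comes from `A^ι` -/
theorem exists_up_eq {u : ι → L} (hu : u ∈ PolyDisc A ι) : ∃ x : ι → A, up A x = u :=
  ⟨fun i => ⟨u i, A.mem_of_valuation_le_one _ (le_of_lt (hu i))⟩, rfl⟩

theorem coe_aeval [Fact (R ≤ A.toSubring)] (P : MvPolynomial ι R) (x : ι → A) :
    ((aeval x P : A) : L) = eval (up A x) (map R.subtype P) := by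
  rw [eval_map]
  have h1 : ((aeval x P : A) : L) = A.subtype (aeval x P) := rfl
  rw [h1, aeval_def, eval₂_comp_left A.subtype]
  rfl

/-- polynomials over `L` with coefficients in `R` are typed -/
theorem exists_typed (P : MvPolynomial ι L) (hP : ∀ m, P.coeff m ∈ R) :
    ∃ P' : MvPolynomial ι R, map R.subtype P' = P := by
  have : P ∈ Set.range (map R.subtype : MvPolynomial ι R → MvPolynomial ι L) := by
    rw [mem_range_map_iff_coeffs_subset]
    intro c hc
    rw [Finset.mem_coe, mem_coeffs_iff] at hc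
    obtain ⟨n, _, rfl⟩ := hc
    exact ⟨⟨P.coeff n, hP n⟩, rfl⟩
  exact this

theorem coeff_map_subtype_mem (P' : MvPolynomial ι R) (m : ι →₀ ℕ) :
    (map R.subtype P').coeff m ∈ R := by
  rw [coeff_map]
  exact (P'.coeff m).2

/-- smallness forces integrality -/
theorem mem_of_smallAt {ϖ : L} (hϖ : ϖ ∈ A) {u : ι → L} (hu : u ∈ PolyDisc A ι) {M : ℕ} {d : L}
    (h : SmallAt A ϖ u M d) : d ∈ A := by
  have := h 1 ((A.valuation_le_one_iff ϖ).mpr hϖ) (fun i => le_of_lt (hu i))
  rw [one_pow] at this
  exact A.mem_of_valuation_le_one d this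

theorem smallAt_iff [Finite ι] (ϖ : A) (x : ι → A) (M : ℕ) (d : A) :
    SmallAt A (ϖ : L) (up A x) M (d : L) ↔ d ∈ gauge (Ideal.span {ϖ}) x ^ M :=
  (mem_gauge_pow_iff A ϖ x M d).symm

/-- values of an analytic function on the polydisc are integral -/
theorem analyticOn_mem [Fact (R ≤ A.toSubring)] {ϖ : L} (hϖ : ϖ ∈ A) {f : (ι → L) → L}
    (hf : AnalyticOn A R ϖ f) {u : ι → L} (hu : u ∈ PolyDisc A ι) : f u ∈ A := by
  obtain ⟨P, hP, hPf⟩ := hf 0
  obtain ⟨P', rfl⟩ := exists_typed R P hP
  obtain ⟨x, rfl⟩ := exists_up_eq A hu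
  have h1 := mem_of_smallAt A hϖ hu (hPf _ hu)
  have h2 : eval (up A x) (map R.subtype P') ∈ A := by
    rw [← coe_aeval]; exact (aeval x P').2
  have := A.add_mem _ _ h1 h2
  simpa using this

/-- **Bridge, first direction.** -/
theorem analyticOn_isAn_res [Finite ι] [Fact (R ≤ A.toSubring)] (ϖ : A) {f : (ι → L) → L}
    (hf : AnalyticOn A R (ϖ : L) f) : IsAn R (Ideal.span {ϖ}) (res A f) := by
  intro M
  obtain ⟨P, hP, hPf⟩ := hf M
  obtain ⟨P', rfl⟩ := exists_typed R P hP
  refine ⟨P', fun x hx => ?_⟩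
  have hu := (inDisc_iff A x).mp hx
  have hfu : f (up A x) ∈ A := analyticOn_mem A R ϖ.2 hf hu
  rw [← smallAt_iff]
  have : ((res A f x - aeval x P' : A) : L) = f (up A x) - eval (up A x) (map R.subtype P') := by
    rw [← coe_aeval, ← coe_res A hfu]
    rfl
  rw [this]
  exact hPf _ hu

/-- **Bridge, second direction.** -/
theorem analyticOn_of_isAn [Finite ι] [Fact (R ≤ A.toSubring)] (ϖ : A) {F : (ι → A) → A}
    (hF : IsAn R (Ideal.span {ϖ}) F) {f : (ι → L) → L}
    (hfF : ∀ x : ι → A, InDisc x → f (up A x) = (F x : L)) : AnalyticOn A R (ϖ : L) f := by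
  intro M
  obtain ⟨P', hP'⟩ := hF M
  refine ⟨map R.subtype P', coeff_map_subtype_mem R P', fun u hu => ?_⟩
  obtain ⟨x, rfl⟩ := exists_up_eq A hu
  have hx := (inDisc_iff A x).mpr hu
  have h1 := hP' x hx
  rw [← smallAt_iff] at h1
  have : f (up A x) - eval (up A x) (map R.subtype P') = ((F x - aeval x P' : A) : L) := by
    rw [hfF x hx, ← coe_aeval]
    rfl
  rw [this]
  exact h1

/-- `res` of an analytic function computes the function on the polydisc. -/
theorem analyticOn_coe_res [Fact (R ≤ A.toSubring)] {ϖ : L} (hϖ : ϖ ∈ A) {f : (ι → L) → L}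
    (hf : AnalyticOn A R ϖ f) (x : ι → A) (hx : InDisc x) :
    ((res A f x : A) : L) = f (up A x) :=
  coe_res A (analyticOn_mem A R hϖ hf ((inDisc_iff A x).mp hx))

end Fermat.Agent.S19lib.An
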