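/-
FF-An: the calculus for the interface notion `AnalyticOn A R ϖ` / `AnalyticMap A R ϖ`
(`A0Analytic A ℓ` of `Iface.lean` is `AnalyticOn A (A0 A) ℓ` by `Iff.rfl`): constants, coordinates,
ring operations, determinants, composition, substitution of constants, reindexing.
All index types are finite.
-/
import Fermat.Agent.S19lib.An.Bridge

namespace Fermat.Agent.S19lib.An

open MvPolynomial

variable {L : Type*} [Field L] (A : ValuationSubring L) (R : Subring L)
variable {ι κ : Type*}

attribute [local instance] algOfFact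

section ring

variable (hR : R ≤ A.toSubring) {ϖ : L} (hϖ : ϖ ∈ A)
include hR hϖ

/-- polynomial functions with coefficients in `R` -/
theorem analyticOn_eval [Finite ι] (P : MvPolynomial ι L) (hP : ∀ m, P.coeff m ∈ R) :
    AnalyticOn A R ϖ (fun u => eval u P) := by
  haveI : Fact (R ≤ A.toSubring) := ⟨hR⟩
  obtain ⟨P', rfl⟩ := exists_typed R P hP
  refine analyticOn_of_isAn A R ⟨ϖ, hϖ⟩ (isAn_aeval P') (fun x _ => ?_)
  rw [coe_aeval]

theorem analyticOn_const [Finite ι] {a : L} (ha : a ∈ R) :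
    AnalyticOn A R ϖ (fun _ : ι → L => a) := by
  haveI : Fact (R ≤ A.toSubring) := ⟨hR⟩
  exact analyticOn_of_isAn A R ⟨ϖ, hϖ⟩ (isAn_const (⟨a, ha⟩ : R)) (fun x _ => rfl)

theorem analyticOn_coord [Finite ι] (i : ι) : AnalyticOn A R ϖ (fun u : ι → L => u i) := by
  haveI : Fact (R ≤ A.toSubring) := ⟨hR⟩
  exact analyticOn_of_isAn A R ⟨ϖ, hϖ⟩ (isAn_coord i) (fun x _ => rfl)

theorem analyticOn_add [Finite ι] {f g : (ι → L) → L} (hf : AnalyticOn A R ϖ f)
    (hg : AnalyticOn A R ϖ g) : AnalyticOn A R ϖ (fun u => f u + g u) := by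
  haveI : Fact (R ≤ A.toSubring) := ⟨hR⟩
  refine analyticOn_of_isAn A R ⟨ϖ, hϖ⟩
    ((analyticOn_isAn_res A R ⟨ϖ, hϖ⟩ hf).add (analyticOn_isAn_res A R ⟨ϖ, hϖ⟩ hg))
    (fun x hx => ?_)
  rw [← analyticOn_coe_res A R hϖ hf x hx, ← analyticOn_coe_res A R hϖ hg x hx]
  rfl

theorem analyticOn_neg [Finite ι] {f : (ι → L) → L} (hf : AnalyticOn A R ϖ f) :
    AnalyticOn A R ϖ (fun u => - f u) := by
  haveI : Fact (R ≤ A.toSubring) := ⟨hR⟩
  refine analyticOn_of_isAn A R ⟨ϖ, hϖ⟩ (analyticOn_isAn_res A R ⟨ϖ, hϖ⟩ hf).neg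
    (fun x hx => ?_)
  rw [← analyticOn_coe_res A R hϖ hf x hx]
  rfl

theorem analyticOn_sub [Finite ι] {f g : (ι → L) → L} (hf : AnalyticOn A R ϖ f)
    (hg : AnalyticOn A R ϖ g) : AnalyticOn A R ϖ (fun u => f u - g u) := by
  have := analyticOn_add A R hR hϖ hf (analyticOn_neg A R hR hϖ hg)
  exact this.congr A (fun u _ => by ring)

theorem analyticOn_mul [Finite ι] {f g : (ι → L) → L} (hf : AnalyticOn A R ϖ f)
    (hg : AnalyticOn A R ϖ g) : AnalyticOn A R ϖ (fun u => f u * g u) := by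
  haveI : Fact (R ≤ A.toSubring) := ⟨hR⟩
  refine analyticOn_of_isAn A R ⟨ϖ, hϖ⟩
    ((analyticOn_isAn_res A R ⟨ϖ, hϖ⟩ hf).mul (analyticOn_isAn_res A R ⟨ϖ, hϖ⟩ hg))
    (fun x hx => ?_)
  rw [← analyticOn_coe_res A R hϖ hf x hx, ← analyticOn_coe_res A R hϖ hg x hx]
  rfl

theorem analyticOn_pow [Finite ι] {f : (ι → L) → L} (hf : AnalyticOn A R ϖ f) (n : ℕ) :
    AnalyticOn A R ϖ (fun u => f u ^ n) := by
  induction n with
  | zero =>
    exact (analyticOn_const A R hR hϖ (ι := ι) R.one_mem).congr A (fun u _ => by simp)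
  | succ n ih =>
    exact (analyticOn_mul A R hR hϖ ih hf).congr A (fun u _ => by ring)

theorem analyticOn_const_mul [Finite ι] {f : (ι → L) → L} (hf : AnalyticOn A R ϖ f) {a : L}
    (ha : a ∈ R) : AnalyticOn A R ϖ (fun u => a * f u) :=
  analyticOn_mul A R hR hϖ (analyticOn_const A R hR hϖ ha) hf

theorem analyticOn_finset_sum [Finite ι] {α : Type*} (s : Finset α) {f : α → (ι → L) → L}
    (hf : ∀ a ∈ s, AnalyticOn A R ϖ (f a)) : AnalyticOn A R ϖ (fun u => ∑ a ∈ s, f a u) := by
  classical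
  induction s using Finset.induction_on with
  | empty =>
    exact (analyticOn_const A R hR hϖ (ι := ι) R.zero_mem).congr A (fun u _ => by simp)
  | insert a s ha ih =>
    have h1 := hf a (Finset.mem_insert_self a s)
    have h2 := ih (fun b hb => hf b (Finset.mem_insert_of_mem hb))
    exact (analyticOn_add A R hR hϖ h1 h2).congr A (fun u _ => by rw [Finset.sum_insert ha])

theorem analyticOn_finset_prod [Finite ι] {α : Type*} (s : Finset α) {f : α → (ι → L) → L}
    (hf : ∀ a ∈ s, AnalyticOn A R ϖ (f a)) : AnalyticOn A R ϖ (fun u => ∏ a ∈ s, f a u) := by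
  classical
  induction s using Finset.induction_on with
  | empty =>
    exact (analyticOn_const A R hR hϖ (ι := ι) R.one_mem).congr A (fun u _ => by simp)
  | insert a s ha ih =>
    have h1 := hf a (Finset.mem_insert_self a s)
    have h2 := ih (fun b hb => hf b (Finset.mem_insert_of_mem hb))
    exact (analyticOn_mul A R hR hϖ h1 h2).congr A (fun u _ => by rw [Finset.prod_insert ha])

/-- determinants of matrices of analytic functions -/
theorem analyticOn_det [Finite ι] {n : Type*} [Fintype n] [DecidableEq n]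
    {m : n → n → (ι → L) → L} (hm : ∀ i j, AnalyticOn A R ϖ (m i j)) :
    AnalyticOn A R ϖ (fun u => Matrix.det (Matrix.of (fun i j => m i j u))) := by
  have : ∀ u : ι → L, Matrix.det (Matrix.of (fun i j => m i j u)) =
      ∑ σ : Equiv.Perm n, ((Equiv.Perm.sign σ : ℤ) : L) * ∏ i, m (σ i) i u := by
    intro u
    rw [Matrix.det_apply]
    refine Finset.sum_congr rfl (fun σ _ => ?_)
    rw [Units.smul_def, zsmul_eq_mul]
    simp [Matrix.of_apply]
  refine AnalyticOn.congr A ?_ (fun u _ => (this u).symm)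
  refine analyticOn_finset_sum A R hR hϖ _ (fun σ _ => ?_)
  refine analyticOn_const_mul A R hR hϖ ?_ (intCast_mem R _)
  exact analyticOn_finset_prod A R hR hϖ _ (fun i _ => hm (σ i) i)

end ring

section comp

variable (hR : R ≤ A.toSubring) {ϖ : L} (hϖ : A.valuation ϖ < 1)
  (hε : ∀ ε ∈ R, A.valuation ε < 1 → A.valuation ε ≤ A.valuation ϖ)
include hR hϖ hε

/-- the standing hypothesis in the abstract form -/
theorem constIdeal_of_val :
    haveI : Fact (R ≤ A.toSubring) := ⟨hR⟩
    ConstIdeal R (Ideal.span {(⟨ϖ, A.mem_of_valuation_le_one _ (le_of_lt hϖ)⟩ : A)}) := by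
  haveI : Fact (R ≤ A.toSubring) := ⟨hR⟩
  refine ⟨?_, fun a ha => ?_⟩
  · rw [Ideal.span_le]
    rintro _ rfl
    exact (A.valuation_lt_one_iff _).mpr hϖ
  · have h1 : A.valuation ((a : L)) < 1 := (A.valuation_lt_one_iff (algebraMap R A a)).mp ha
    have h2 := hε (a : L) a.2 h1
    rw [A.valuation_le_iff] at h2
    obtain ⟨b, hb⟩ := h2
    rw [Ideal.mem_span_singleton']
    exact ⟨b, Subtype.ext hb⟩

/-- **Composition** (`AnalyticOn` form). -/
theorem analyticOn_comp [Finite ι] [Finite κ] {f : (κ → L) → L} {g : κ → (ι → L) → L}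
    (hf : AnalyticOn A R ϖ f) (hg : ∀ k, AnalyticOn A R ϖ (g k))
    (hgm : ∀ k, ∀ u ∈ PolyDisc A ι, A.valuation (g k u) < 1) :
    AnalyticOn A R ϖ (fun u => f (fun k => g k u)) := by
  haveI : Fact (R ≤ A.toSubring) := ⟨hR⟩
  have hϖA : ϖ ∈ A := A.mem_of_valuation_le_one _ (le_of_lt hϖ)
  have hc := constIdeal_of_val A R hR hϖ hε
  have hgd : ∀ k (x : ι → A), InDisc x → res A (g k) x ∈ IsLocalRing.maximalIdeal A := by
    intro k x hx
    rw [A.valuation_lt_one_iff, analyticOn_coe_res A R hϖA (hg k) x hx]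
    exact hgm k _ ((inDisc_iff A x).mp hx)
  refine analyticOn_of_isAn A R ⟨ϖ, hϖA⟩
    (IsAn.comp' hc (analyticOn_isAn_res A R ⟨ϖ, hϖA⟩ hf)
      (fun k => analyticOn_isAn_res A R ⟨ϖ, hϖA⟩ (hg k)) hgd) (fun x hx => ?_)
  have hy : InDisc (fun k => res A (g k) x) := fun k => hgd k x hx
  rw [analyticOn_coe_res A R hϖA hf _ hy]
  congr 1
  funext k
  exact (analyticOn_coe_res A R hϖA (hg k) x hx).symm

/-- **Composition** (`AnalyticMap` form, as consumed by FF-D). -/
theorem analyticMap_comp [Finite ι] [Finite κ] {μ : Type*} {f : (κ → L) → μ → L}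
    {g : (ι → L) → κ → L} (hf : AnalyticMap A R ϖ f) (hg : AnalyticMap A R ϖ g)
    (hgm : ∀ u ∈ PolyDisc A ι, g u ∈ PolyDisc A κ) :
    AnalyticMap A R ϖ (fun u => f (g u)) := by
  intro j
  exact analyticOn_comp A R hR hϖ hε (g := fun k u => g u k) (hf j) hg (fun k u hu => hgm u hu k)

/-- Reindexing of the variables along any map (no condition on `R`, `ϖ` would be needed, but we
keep the same hypotheses for uniformity). -/
theorem analyticOn_reindex [Finite ι] [Finite κ] {f : (κ → L) → L} (hf : AnalyticOn A R ϖ f)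
    (e : κ → ι) : AnalyticOn A R ϖ (fun u : ι → L => f (fun k => u (e k))) := by
  have hϖA : ϖ ∈ A := A.mem_of_valuation_le_one _ (le_of_lt hϖ)
  exact analyticOn_comp A R hR hϖ hε (g := fun k u => u (e k)) hf
    (fun k => analyticOn_coord A R hR hϖA (e k)) (fun k u hu => hu (e k))

/-- **Substitution of constants**: each variable `k` of `f` is replaced by a variable
(`e k = Sum.inl i`) or by a constant `e k = Sum.inr a`, `a ∈ R`, `v a < 1`. -/
theorem analyticOn_subst [Finite ι] [Finite κ] {f : (κ → L) → L} (hf : AnalyticOn A R ϖ f)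
    (e : κ → ι ⊕ L) (he : ∀ k a, e k = Sum.inr a → a ∈ R ∧ A.valuation a < 1) :
    AnalyticOn A R ϖ (fun u : ι → L => f (fun k => Sum.elim u id (e k))) := by
  have hϖA : ϖ ∈ A := A.mem_of_valuation_le_one _ (le_of_lt hϖ)
  refine analyticOn_comp A R hR hϖ hε (g := fun k u => Sum.elim u id (e k)) hf (fun k => ?_)
    (fun k u hu => ?_)
  · cases h : e k with
    | inl i => simpa [h] using analyticOn_coord A R hR hϖA i
    | inr a => simpa [h] using analyticOn_const A R hR hϖA (ι := ι) (he k a h).1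
  · cases h : e k with
    | inl i => simpa [h] using hu i
    | inr a => simpa [h] using (he k a h).2

/-- Substitution of a block of constants: `f (u, ε)` for `f` in the variables `ι ⊕ κ`. -/
theorem analyticOn_subst_inr [Finite ι] [Finite κ] {f : (ι ⊕ κ → L) → L}
    (hf : AnalyticOn A R ϖ f) (ε : κ → L) (hεR : ∀ k, ε k ∈ R) (hεm : ∀ k, A.valuation (ε k) < 1) :
    AnalyticOn A R ϖ (fun u : ι → L => f (Sum.elim u ε)) := by
  have := analyticOn_subst A R hR hϖ hε hf (fun z : ι ⊕ κ => Sum.elim (fun i => Sum.inl i)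
    (fun k => Sum.inr (ε k)) z) (fun z a hz => by
      cases z with
      | inl i => simp at hz
      | inr k =>
        simp only [Sum.elim_inr, Sum.inr.injEq] at hz
        subst hz
        exact ⟨hεR k, hεm k⟩)
  refine this.congr A (fun u _ => ?_)
  congr 1
  funext z
  cases z with
  | inl i => simp
  | inr k => simp

end comp

end Fermat.Agent.S19lib.An
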