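/-
FF-An → FF-C (P3): analytic minors. If the entries of an `m × (m+1)` matrix are analytic functions
of `w`, so are its signed maximal minors `C.cross (Λ w) k`; specialised to the matrix of values
`Λ w = (e k (P_r w))` at the `2g` points of two chart families.
-/
import Fermat.Agent.S19lib.An.Calc
import Fermat.Agent.S19lib.C.Cross
import Fermat.Agent.S19lib.Geom.Family

set_option autoImplicit false

noncomputable section

namespace Fermat.Agent.S19lib.An

open AlgebraicCurve Fermat.Agent.LSb Fermat.Agent.S18lib Fermat.Agent.S19lib.C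
  Fermat.Agent.S19lib.Geom

section generic

variable {L : Type*} [Field L] (A : ValuationSubring L) (R : Subring L)
variable {ι : Type*}

/-- **analytic minors** (generic form) -/
theorem analyticOn_cross [Finite ι] (hR : R ≤ A.toSubring) {ϖ : L} (hϖ : ϖ ∈ A) {m : ℕ}
    (Λ : (ι → L) → Matrix (Fin m) (Fin (m + 1)) L)
    (hΛ : ∀ r j, AnalyticOn A R ϖ (fun w => Λ w r j)) (j : Fin (m + 1)) :
    AnalyticOn A R ϖ (fun w => cross (Λ w) j) := by
  have h1 : AnalyticOn A R ϖ
      (fun w => Matrix.det (Matrix.of (fun r i => Λ w r (j.succAbove i)))) :=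
    analyticOn_det A R hR hϖ (m := fun r i w => Λ w r (j.succAbove i))
      (fun r i => hΛ r (j.succAbove i))
  have h2 : ((-1 : L) ^ (j : ℕ)) ∈ R := pow_mem (neg_mem R.one_mem) _
  exact analyticOn_const_mul A R hR hϖ h1 h2

/-- the values of analytic minors lie in `A` -/
theorem cross_mem [Finite ι] (hR : R ≤ A.toSubring) {ϖ : L} (hϖ : ϖ ∈ A) {m : ℕ}
    (Λ : (ι → L) → Matrix (Fin m) (Fin (m + 1)) L)
    (hΛ : ∀ r j, AnalyticOn A R ϖ (fun w => Λ w r j)) (j : Fin (m + 1))
    {w : ι → L} (hw : w ∈ PolyDisc A ι) : cross (Λ w) j ∈ A := by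
  haveI : Fact (R ≤ A.toSubring) := ⟨hR⟩
  exact analyticOn_mem A R hϖ (analyticOn_cross A R hR hϖ Λ hΛ j) hw

end generic

section families

variable {L : Type*} [Field L] {A : ValuationSubring L}
variable {F : Type*} [Field F] [Algebra L F]
variable {Fk : Type*} [Field Fk] [Algebra (IsLocalRing.ResidueField A) Fk]
variable [HasPrincipalDivisors L F] [HasPrincipalDivisors (IsLocalRing.ResidueField A) Fk]
variable {G : Type*} [Group G]
variable {D : RedDatum A F Fk} {S : SymData D G} {g : ℕ}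

/-- rows of the `2g × (2g+1)` matrix: `g` rows for the family `a`, then `g` rows for `b` -/
def rowEquiv (g : ℕ) : Fin (2 * g) ≃ Fin g ⊕ Fin g :=
  (finCongr (two_mul g)).trans finSumFinEquiv.symm

/-- the `2g` points with coordinates `w = (u, v)` -/
def pts (a b : Fam D S g) (w : Fin g ⊕ Fin g → L) : Fin g ⊕ Fin g → Place L F :=
  Sum.elim (fun i => (a.ch i).pt (w (Sum.inl i))) (fun i => (b.ch i).pt (w (Sum.inr i)))

/-- the matrix of values of the functions `e k` at the `2g` points -/
def Lam (a b : Fam D S g) {n : ℕ} (e : Fin n → F) (w : Fin g ⊕ Fin g → L) :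
    Matrix (Fin (2 * g)) (Fin n) L :=
  fun r j => ev (pts a b w (rowEquiv g r)) (e j)

theorem analyticOn_Lam (a b : Fam D S g) {n : ℕ} (e : Fin n → F)
    (hea : ∀ i j, DiscReg D (a.Qb i) (e j)) (heb : ∀ i j, DiscReg D (b.Qb i) (e j))
    (hfix : ∀ j, S.FixF (e j)) (ϖ : L) (r : Fin (2 * g)) (j : Fin n) :
    AnalyticOn A S.R ϖ (fun w => Lam a b e w r j) := by
  unfold Lam
  cases h : rowEquiv g r with
  | inl i =>
    have := (a.ch i).analyticOn_ev_fixed S (ι := Fin g ⊕ Fin g) (Sum.inl i) (hea i j)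
      (a.fixT i) (a.fixP i) (hfix j) ϖ
    simpa [pts, h] using this
  | inr i =>
    have := (b.ch i).analyticOn_ev_fixed S (ι := Fin g ⊕ Fin g) (Sum.inr i) (heb i j)
      (b.fixT i) (b.fixP i) (hfix j) ϖ
    simpa [pts, h] using this

/-- **(P3)**: the signed maximal minors of the value matrix are analytic in `w = (u, v)`. -/
theorem analyticOn_cross_Lam (hR : S.R ≤ A.toSubring) {ϖ : L} (hϖ : ϖ ∈ A)
    (a b : Fam D S g) (e : Fin (2 * g + 1) → F)
    (hea : ∀ i j, DiscReg D (a.Qb i) (e j)) (heb : ∀ i j, DiscReg D (b.Qb i) (e j))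
    (hfix : ∀ j, S.FixF (e j)) (j : Fin (2 * g + 1)) :
    AnalyticOn A S.R ϖ (fun w => cross (Lam a b e w) j) :=
  analyticOn_cross A S.R hR hϖ (fun w => Lam a b e w)
    (fun r j' => analyticOn_Lam a b e hea heb hfix ϖ r j') j

end families

end Fermat.Agent.S19lib.An

end
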