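/-
FF-An → FF-C (Q2): the residue side at `w = 0`. For a configuration `T : B.TriData a b c` the
determinant section `sec 0 = ∑ j, cross (Lam a b T.e 0) j • T.e j` reduces to a NONZERO multiple of
`s̄₀ = red s₀`; hence it has a simple zero at every centre of the third family. This is the
hypothesis `hsimple` of `An.analyticOn_ev_zero`.
-/
import Fermat.Agent.S19lib.An.CrossRR
import Fermat.Agent.S19lib.Geom.Sec
import Fermat.Agent.S19lib.H2.SimpleZero

set_option autoImplicit false
set_option linter.unusedSectionVars false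

noncomputable section

namespace Fermat.Agent.S19lib.An

open AlgebraicCurve Module Fermat.Agent.LSb Fermat.Agent.S18lib Fermat.Agent.S19lib.C
  Fermat.Agent.S19lib.Geom

variable {L : Type*} [Field L] {A : ValuationSubring L}
variable {F : Type*} [Field F] [Algebra L F]
variable {Fk : Type*} [Field Fk] [Algebra (IsLocalRing.ResidueField A) Fk]
variable [HasPrincipalDivisors L F] [HasPrincipalDivisors (IsLocalRing.ResidueField A) Fk]
variable {G : Type*} [Group G]
variable {D : RedDatum A F Fk} {S : SymData D G} {g : ℕ}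

local notation "k" => IsLocalRing.ResidueField A

/-- the `2g` centres on the residue curve, indexed like the points `pts` -/
def ctr (a b : Fam D S g) : Fin g ⊕ Fin g → Place k Fk := Sum.elim a.Qb b.Qb

theorem r_pts (a b : Fam D S g) (w : Fin g ⊕ Fin g → L) (s : Fin g ⊕ Fin g) :
    D.r (pts a b w s) = ctr a b s := by
  rcases s with i | i
  · exact r_pts_inl a b w i
  · exact r_pts_inr a b w i

theorem ctr_injective (a b : Fam D S g) (hab : a.Disjoint b) : Function.Injective (ctr a b) := by
  intro s s' h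
  rcases s with i | i <;> rcases s' with j | j
  · rw [a.inj h]
  · exact absurd h (hab i j)
  · exact absurd h.symm (hab j i)
  · rw [b.inj h]

theorem deg_ctr (a b : Fam D S g) (s : Fin g ⊕ Fin g) : (ctr a b s).deg = 1 := by
  rw [← r_pts a b 0 s, D.deg_r, a.deg_one]

/-- the sum of the `2g` centres is `Ē_a + Ē_b` -/
theorem sum_ctr (a b : Fam D S g) :
    ∑ r : Fin (2 * g), (Finsupp.single (ctr a b (rowEquiv g r)) (1 : ℤ) : Divisor k Fk)
      = B.Fam.Eb a + B.Fam.Eb b := by
  rw [Equiv.sum_comp (rowEquiv g)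
    (fun s => (Finsupp.single (ctr a b s) (1 : ℤ) : Divisor k Fk)), Fintype.sum_sum_type]
  rfl

variable {a b c : Fam D S g}

/-- the functions `T.e j` are regular on the discs of the `2g` centres -/
theorem discReg_e_ctr (T : B.TriData a b c) (s : Fin g ⊕ Fin g) (j : Fin (2 * g + 1)) :
    DiscReg D (ctr a b s) (T.e j) := by
  rcases s with i | i
  · exact TriSec.discReg_e_a T i j
  · exact TriSec.discReg_e_b T i j

/-- the reduced divisor `r_* B` is trivial at the `2g` centres -/
theorem mapDomain_Bd_ctr (T : B.TriData a b c) (s : Fin g ⊕ Fin g) :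
    Finsupp.mapDomain D.r T.Bd (ctr a b s) = 0 := by
  rcases s with i | i
  · exact H2.mapDomain_apply_eq_zero_of_disc D.r T.Bd _ (fun P hP => T.B_disc_a P i hP)
  · exact H2.mapDomain_apply_eq_zero_of_disc D.r T.Bd _ (fun P hP => T.B_disc_b P i hP)

/-- the entries of `Lam a b T.e w` are integral -/
theorem Lam_mem (T : B.TriData a b c) (w : Fin g ⊕ Fin g → L) (r : Fin (2 * g))
    (j : Fin (2 * g + 1)) : Lam a b T.e w r j ∈ A :=
  (discReg_e_ctr T (rowEquiv g r) j).ev_mem (r_pts a b w _) (a.deg_one _)

/-- the residues of the entries of `Lam a b T.e w` -/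
theorem residue_Lam (T : B.TriData a b c) (w : Fin g ⊕ Fin g → L) (r : Fin (2 * g))
    (j : Fin (2 * g + 1)) :
    IsLocalRing.residue A ⟨Lam a b T.e w r j, Lam_mem T w r j⟩
      = ev (ctr a b (rowEquiv g r)) (D.redF (T.e j)) :=
  (discReg_e_ctr T (rowEquiv g r) j).residue_ev (r_pts a b w _) (a.deg_one _)

/-- **reduction of the determinant section**: for every `w`, the reduction of
`∑ j, cross (Lam a b T.e w) j • T.e j` is a nonzero multiple of `s̄₀` -/
theorem exists_redF_sec_eq_smul (hab : a.Disjoint b) (T : B.TriData a b c)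
    (w : Fin g ⊕ Fin g → L) :
    ∃ lam : k, lam ≠ 0 ∧
      D.redF (∑ j, cross (Lam a b T.e w) j • T.e j) = lam • D.redF T.s0 := by
  -- the matrix over `A`
  set ΛA : Matrix (Fin (2 * g)) (Fin (2 * g + 1)) A :=
    fun r j => ⟨Lam a b T.e w r j, Lam_mem T w r j⟩ with hΛA
  have hmap : Lam a b T.e w = ΛA.map A.subtype := by
    ext r j
    rfl
  have hcr : ∀ j, cross (Lam a b T.e w) j = ((cross ΛA j : A) : L) := fun j => by
    rw [hmap, cross_map]
    rfl
  -- the matrix over `k`
  have hres : ΛA.map (IsLocalRing.residue A)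
      = Matrix.of fun r j => ev (ctr a b (rowEquiv g r)) (D.redF (T.e j)) := by
    ext r j
    exact residue_Lam T w r j
  -- reduction of the section
  have hred : D.redF (∑ j, cross (Lam a b T.e w) j • T.e j)
      = ∑ j, cross (Matrix.of fun r j => ev (ctr a b (rowEquiv g r)) (D.redF (T.e j))) j
          • D.redF (T.e j) := by
    have h1 : ∑ j, cross (Lam a b T.e w) j • T.e j
        = ∑ j, algebraMap L F ((cross ΛA j : A) : L) * T.e j :=
      Finset.sum_congr rfl fun j _ => by rw [hcr j, Algebra.smul_def]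
    rw [h1, T.e_orth.redF_sum (cross ΛA)]
    refine Finset.sum_congr rfl fun j _ => ?_
    rw [← hres, cross_map]
  rw [hred]
  -- the one-curve statement
  refine exists_cross_section_eq_smul (Bb := Finsupp.mapDomain D.r T.Bd)
    (fun j => D.redF (T.e j)) T.e_orth.2 T.eb_span (fun r => ctr a b (rowEquiv g r))
    (fun r r' h => (rowEquiv g).injective (ctr_injective a b hab h))
    (fun r => deg_ctr a b _) (fun r => mapDomain_Bd_ctr T _) ?_
  rw [sum_ctr a b, ← sub_sub]
  exact T.rr_ab

/-- **(Q2), simple zero**: the reduction of the determinant section at `w = 0` vanishes to order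
exactly one at every centre of the third family -/
theorem ord_redF_sec_zero (hab : a.Disjoint b) (hbc : b.Disjoint c) (hca : c.Disjoint a)
    (T : B.TriData a b c) (i : Fin g) :
    (c.Qb i).ord (D.redF (∑ j, cross (Lam a b T.e 0) j • T.e j)) = 1 := by
  obtain ⟨lam, hlam, h⟩ := exists_redF_sec_eq_smul hab T 0
  rw [h, Algebra.smul_def, Place.ord_mul (c.Qb i)
    ((map_ne_zero_iff _ (algebraMap k Fk).injective).2 hlam) T.red_s0_ne,
    ord_algebraMap_eq_zero (c.Qb i) hlam, zero_add]
  exact H2.ord_redF_s0_eq_one T (fun j l h => hca l j h.symm) hbc i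

/-- the same for every `w` -/
theorem ord_redF_sec (hab : a.Disjoint b) (hbc : b.Disjoint c) (hca : c.Disjoint a)
    (T : B.TriData a b c) (w : Fin g ⊕ Fin g → L) (i : Fin g) :
    (c.Qb i).ord (D.redF (∑ j, cross (Lam a b T.e w) j • T.e j)) = 1 := by
  obtain ⟨lam, hlam, h⟩ := exists_redF_sec_eq_smul hab T w
  rw [h, Algebra.smul_def, Place.ord_mul (c.Qb i)
    ((map_ne_zero_iff _ (algebraMap k Fk).injective).2 hlam) T.red_s0_ne,
    ord_algebraMap_eq_zero (c.Qb i) hlam, zero_add]
  exact H2.ord_redF_s0_eq_one T (fun j l h => hca l j h.symm) hbc i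

end Fermat.Agent.S19lib.An

end
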