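/-
FF-An: Newton's method (implicit function with the root given) for the interface notion
`AnalyticOn A R ϖ`.
-/
import Fermat.Agent.S19lib.An.Calc

namespace Fermat.Agent.S19lib.An

open MvPolynomial

variable {L : Type*} [Field L] (A : ValuationSubring L) (R : Subring L)
variable {ι : Type*}

attribute [local instance] algOfFact

section localness

variable [Fact (R ≤ A.toSubring)] (hRinv : ∀ r ∈ R, A.valuation r = 1 → r⁻¹ ∈ R)
include hRinv

/-- If `R` is closed under inverses of units of `A`, then `R → A` is a local homomorphism. -/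
theorem isLocalHom_of_inv : IsLocalHom (algebraMap R A) := by
  refine ⟨fun a ha => ?_⟩
  have h1 : A.valuation ((a : L)) = 1 := (A.valuation_eq_one_iff (algebraMap R A a)).mp ha
  have hne : (a : L) ≠ 0 := by
    intro h0
    rw [h0, map_zero] at h1
    exact zero_ne_one h1
  have hinv := hRinv (a : L) a.2 h1
  exact isUnit_iff_exists_inv.mpr ⟨⟨(a : L)⁻¹, hinv⟩, Subtype.ext (mul_inv_cancel₀ hne)⟩

theorem isLocalRing_of_inv : IsLocalRing R :=
  haveI := isLocalHom_of_inv A R hRinv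
  (algebraMap R A).domain_isLocalRing

end localness

/-- the point `(r; u)` of `L^(Option ι)` -/
def oconsL (r : L) (u : ι → L) : Option ι → L := fun o => Option.elim o r u

theorem up_ocons (r : A) (x : ι → A) : up A (ocons r x) = oconsL (r : L) (up A x) := by
  funext o
  cases o <;> rfl

/-- membership in `(r^2) + (ϖ)` through the valuation -/
theorem mem_span_sq_sup_span (r ϖ d : A)
    (h : A.valuation (d : L) ≤ max (A.valuation (r : L) ^ 2) (A.valuation (ϖ : L))) :
    d ∈ Ideal.span {r ^ 2} ⊔ Ideal.span {ϖ} := by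
  rcases le_max_iff.mp h with h1 | h1
  · rw [← map_pow, A.valuation_le_iff] at h1
    obtain ⟨b, hb⟩ := h1
    refine Ideal.mem_sup_left ?_
    rw [Ideal.mem_span_singleton']
    exact ⟨b, Subtype.ext hb⟩
  · rw [A.valuation_le_iff] at h1
    obtain ⟨b, hb⟩ := h1
    refine Ideal.mem_sup_right ?_
    rw [Ideal.mem_span_singleton']
    exact ⟨b, Subtype.ext hb⟩

section newton

variable (hR : R ≤ A.toSubring) {ϖ : L} (hϖ : A.valuation ϖ < 1)
  (hε : ∀ ε ∈ R, A.valuation ε < 1 → A.valuation ε ≤ A.valuation ϖ)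
  (hRinv : ∀ r ∈ R, A.valuation r = 1 → r⁻¹ ∈ R)
include hR hϖ hε hRinv

/-- **Implicit function theorem for `AnalyticOn`.** `S` analytic in `(T; u)` (variables
`Option ι`, `none` = the unknown), `ψ u` a root of `S(·; u)` of valuation `< 1` for every `u` of the
polydisc, nondegeneracy at the centre tested at one `r` with `v ϖ < v r < 1`:
`S(r; 0) − S(0; 0) − c r ∈ (r²) + (ϖ)` with `c` a unit of `A`. Then `ψ` is analytic. -/
theorem analyticOn_implicit [Finite ι] {S : (Option ι → L) → L} (hS : AnalyticOn A R ϖ S)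
    {ψ : (ι → L) → L} (hψm : ∀ u ∈ PolyDisc A ι, A.valuation (ψ u) < 1)
    (hroot : ∀ u ∈ PolyDisc A ι, S (oconsL (ψ u) u) = 0)
    (hnd : ∃ r c : L, A.valuation ϖ < A.valuation r ∧ A.valuation r < 1 ∧ A.valuation c = 1 ∧
      A.valuation (S (oconsL r 0) - S (oconsL 0 0) - c * r) ≤
        max (A.valuation r ^ 2) (A.valuation ϖ)) :
    AnalyticOn A R ϖ ψ := by
  haveI : Fact (R ≤ A.toSubring) := ⟨hR⟩
  haveI := isLocalHom_of_inv A R hRinv
  haveI := isLocalRing_of_inv A R hRinv
  have hϖA : ϖ ∈ A := A.mem_of_valuation_le_one _ (le_of_lt hϖ)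
  have hc := constIdeal_of_val A R hR hϖ hε
  have hψA : ∀ x : ι → A, InDisc x → ψ (up A x) ∈ A := fun x hx =>
    A.mem_of_valuation_le_one _ (le_of_lt (hψm _ ((inDisc_iff A x).mp hx)))
  have hψres : ∀ x : ι → A, InDisc x → ((res A ψ x : A) : L) = ψ (up A x) :=
    fun x hx => coe_res A (hψA x hx)
  have hψd : ∀ x : ι → A, InDisc x → res A ψ x ∈ IsLocalRing.maximalIdeal A := by
    intro x hx
    rw [A.valuation_lt_one_iff, hψres x hx]
    exact hψm _ ((inDisc_iff A x).mp hx)
  have hSres : ∀ y : Option ι → A, InDisc y → ((res A S y : A) : L) = S (up A y) :=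
    fun y hy => analyticOn_coe_res A R hϖA hS y hy
  -- the abstract theorem
  have key : IsAn R (Ideal.span {(⟨ϖ, hϖA⟩ : A)}) (res A ψ) := by
    refine IsAn.implicit' hc (analyticOn_isAn_res A R ⟨ϖ, hϖA⟩ hS) hψd (fun x hx => ?_) ?_
    · -- root
      apply Subtype.ext
      rw [hSres _ (inDisc_ocons (hψd x hx) hx), up_ocons, hψres x hx]
      exact hroot _ ((inDisc_iff A x).mp hx)
    · -- nondegeneracy
      obtain ⟨r, c, hr1, hr2, hc1, hval⟩ := hnd
      have hrA : r ∈ A := A.mem_of_valuation_le_one _ (le_of_lt hr2)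
      have hcA : c ∈ A := A.mem_of_valuation_le_one _ (le_of_eq hc1)
      have hrm : (⟨r, hrA⟩ : A) ∈ IsLocalRing.maximalIdeal A :=
        (A.valuation_lt_one_iff _).mpr hr2
      refine ⟨⟨r, hrA⟩, hrm, ?_, ⟨c, hcA⟩, (A.valuation_eq_one_iff _).mpr hc1, ?_⟩
      · intro hmem
        rw [Ideal.mem_span_singleton'] at hmem
        obtain ⟨b, hb⟩ := hmem
        have hb' : (b : L) * ϖ = r := congrArg Subtype.val hb
        have : A.valuation r ≤ A.valuation ϖ := (A.valuation_le_iff r ϖ).mpr ⟨b, hb'⟩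
        exact absurd hr1 (not_lt.mpr this)
      · refine mem_span_sq_sup_span A _ _ _ ?_
        have h0d : InDisc (0 : ι → A) := inDisc_zero
        have h1 : ((res A S (ocons (⟨r, hrA⟩ : A) (0 : ι → A)) : A) : L) = S (oconsL r 0) := by
          rw [hSres _ (inDisc_ocons hrm h0d), up_ocons]
          rfl
        have h2 : ((res A S (ocons (0 : A) (0 : ι → A)) : A) : L) = S (oconsL 0 0) := by
          rw [hSres _ (inDisc_ocons (Ideal.zero_mem _) h0d), up_ocons]
          rfl
        have h3 : ((res A S (ocons (⟨r, hrA⟩ : A) (0 : ι → A))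
            - res A S (ocons (0 : A) (0 : ι → A)) - (⟨c, hcA⟩ : A) * ⟨r, hrA⟩ : A) : L)
            = S (oconsL r 0) - S (oconsL 0 0) - c * r := by
          rw [← h1, ← h2]
          rfl
        rw [h3]
        exact hval
  exact analyticOn_of_isAn A R ⟨ϖ, hϖA⟩ key (fun x hx => (hψres x hx).symm)

/-- **Newton, power series form, for `AnalyticOn`**: `σ n` analytic, `σ 1 0` a unit of `A`, and for
all `M` and all `u` of the polydisc `∑_{n<M} σ_n(u) ψ(u)^n ∈ ψ(u)^M · A`. Then `ψ` is analytic. -/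
theorem analyticOn_of_series_roots [Finite ι] {σ : ℕ → (ι → L) → L}
    (hσ : ∀ n, AnalyticOn A R ϖ (σ n)) {ψ : (ι → L) → L}
    (hψm : ∀ u ∈ PolyDisc A ι, A.valuation (ψ u) < 1)
    (hunit : A.valuation (σ 1 0) = 1)
    (hroot : ∀ M : ℕ, ∀ u ∈ PolyDisc A ι, ∃ a ∈ A,
      ∑ n ∈ Finset.range M, σ n u * ψ u ^ n = ψ u ^ M * a) :
    AnalyticOn A R ϖ ψ := by
  haveI : Fact (R ≤ A.toSubring) := ⟨hR⟩
  haveI := isLocalHom_of_inv A R hRinv
  haveI := isLocalRing_of_inv A R hRinv
  have hϖA : ϖ ∈ A := A.mem_of_valuation_le_one _ (le_of_lt hϖ)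
  have hc := constIdeal_of_val A R hR hϖ hε
  have hψA : ∀ x : ι → A, InDisc x → ψ (up A x) ∈ A := fun x hx =>
    A.mem_of_valuation_le_one _ (le_of_lt (hψm _ ((inDisc_iff A x).mp hx)))
  have hψres : ∀ x : ι → A, InDisc x → ((res A ψ x : A) : L) = ψ (up A x) :=
    fun x hx => coe_res A (hψA x hx)
  have hψd : ∀ x : ι → A, InDisc x → res A ψ x ∈ IsLocalRing.maximalIdeal A := by
    intro x hx
    rw [A.valuation_lt_one_iff, hψres x hx]
    exact hψm _ ((inDisc_iff A x).mp hx)
  have hσres : ∀ n (x : ι → A), InDisc x → ((res A (σ n) x : A) : L) = σ n (up A x) :=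
    fun n x hx => analyticOn_coe_res A R hϖA (hσ n) x hx
  have hσan : ∀ n, IsAn R (Ideal.span {(⟨ϖ, hϖA⟩ : A)}) (res A (σ n)) :=
    fun n => analyticOn_isAn_res A R ⟨ϖ, hϖA⟩ (hσ n)
  -- the root relation in `A`
  have hrootA : ∀ M : ℕ, ∀ x : ι → A, InDisc x →
      ∑ n ∈ Finset.range M, res A (σ n) x * res A ψ x ^ n ∈ Ideal.span {res A ψ x ^ M} := by
    intro M x hx
    obtain ⟨a, haA, ha⟩ := hroot M _ ((inDisc_iff A x).mp hx)
    rw [Ideal.mem_span_singleton']
    refine ⟨⟨a, haA⟩, Subtype.ext ?_⟩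
    have h1 : ((∑ n ∈ Finset.range M, res A (σ n) x * res A ψ x ^ n : A) : L) =
        ∑ n ∈ Finset.range M, σ n (up A x) * ψ (up A x) ^ n := by
      rw [show ((∑ n ∈ Finset.range M, res A (σ n) x * res A ψ x ^ n : A) : L) =
        A.subtype (∑ n ∈ Finset.range M, res A (σ n) x * res A ψ x ^ n) from rfl, map_sum]
      refine Finset.sum_congr rfl (fun n _ => ?_)
      rw [map_mul, map_pow]
      change ((res A (σ n) x : A) : L) * ((res A ψ x : A) : L) ^ n = _
      rw [hσres n x hx, hψres x hx]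
    rw [h1, ha]
    change ((⟨a, haA⟩ : A) : L) * ((res A ψ x : A) : L) ^ M = _
    rw [hψres x hx]
    ring
  have hunitA : IsUnit (res A (σ 1) (0 : ι → A)) := by
    rw [A.valuation_eq_one_iff, hσres 1 0 inDisc_zero]
    exact hunit
  -- `ψ 0 ∈ (ϖ)`
  have hψ0 : res A ψ (0 : ι → A) ∈ Ideal.span {(⟨ϖ, hϖA⟩ : A)} := by
    have h2 := hrootA 2 0 inDisc_zero
    rw [Finset.sum_range_succ, Finset.sum_range_one, pow_zero, mul_one, pow_one,
      Ideal.mem_span_singleton'] at h2
    obtain ⟨a, ha⟩ := h2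
    set p := res A ψ (0 : ι → A) with hp
    set s0 := res A (σ 0) (0 : ι → A) with hs0
    set s1 := res A (σ 1) (0 : ι → A) with hs1
    -- `s0 = p * (a p - s1)`
    have hs0m : s0 ∈ IsLocalRing.maximalIdeal A := by
      have : s0 = p * (a * p - s1) := by linear_combination -ha
      rw [this]
      exact Ideal.mul_mem_right _ _ (hψd 0 inDisc_zero)
    have hs0c := (hσan 0).zero_mem_of_constIdeal hc hs0m
    have hu : IsUnit (s1 - a * p) := by
      refine isUnit_of_sub_mem_maximalIdeal hunitA ?_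
      have : s1 - a * p - s1 = -(a * p) := by ring
      rw [this]
      exact neg_mem (Ideal.mul_mem_left _ _ (hψd 0 inDisc_zero))
    obtain ⟨v, hv⟩ := hu.exists_right_inv
    have h3 : p * (s1 - a * p) = -s0 := by linear_combination -ha
    have h4 : p = -s0 * v := by
      rw [← h3, mul_assoc, hv, mul_one]
    rw [h4]
    exact Ideal.mul_mem_right _ _ (neg_mem hs0c)
  have key : IsAn R (Ideal.span {(⟨ϖ, hϖA⟩ : A)}) (res A ψ) :=
    isAn_of_series_roots hσan hc.1 hψd hψ0 hunitA hrootA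
  exact analyticOn_of_isAn A R ⟨ϖ, hϖA⟩ key (fun x hx => (hψres x hx).symm)

end newton

end Fermat.Agent.S19lib.An
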