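/-
FF-An: abstract disc algebras. Interface between the local API of a residue disc (values,
parameter, Taylor division (L3)) and the analytic calculus: values of rational functions are
strictly analytic in the parameter, divided differences are jointly strictly analytic.
-/
import Fermat.Agent.S19lib.An.Comp

namespace Fermat.Agent.S19lib.An

open MvPolynomial

universe u0 u1 u2

/-- An abstract disc algebra: a ring `𝒪` of functions on a disc `≃ 𝔪_A` with parameter `t`,
evaluation `ev u` at the point of parameter `u ∈ 𝔪`, division by `t - u` (with uniqueness),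
and a set `rat` of `A0`-rational functions stable under `f ↦ (f - f(0))/t`. -/
structure DiscData (A0 : Type u0) (A : Type u1) (𝒪 : Type u2) [CommRing A0] [CommRing A]
    [Algebra A0 A] [IsLocalRing A] [CommRing 𝒪] [Algebra A 𝒪] : Type (max u1 u2) where
  /-- the parameter -/
  t : 𝒪
  /-- evaluation at the point of parameter `u` (only used for `u ∈ 𝔪`) -/
  ev : A → 𝒪 →ₐ[A] A
  ev_t : ∀ u ∈ IsLocalRing.maximalIdeal A, ev u t = u
  exists_dd : ∀ u ∈ IsLocalRing.maximalIdeal A, ∀ f : 𝒪, ∃ f' : 𝒪,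
    f - algebraMap A 𝒪 (ev u f) = (t - algebraMap A 𝒪 u) * f'
  cancel : ∀ u ∈ IsLocalRing.maximalIdeal A, ∀ f g : 𝒪,
    (t - algebraMap A 𝒪 u) * f = (t - algebraMap A 𝒪 u) * g → f = g
  /-- the `A0`-rational functions -/
  rat : Set 𝒪
  ev_rat : ∀ f ∈ rat, ∃ a : A0, ev 0 f = algebraMap A0 A a
  dd_rat : ∀ f ∈ rat, ∀ f' : 𝒪, f - algebraMap A 𝒪 (ev 0 f) = t * f' → f' ∈ rat

variable {A0 : Type u0} {A : Type u1} {𝒪 : Type u2} [CommRing A0] [CommRing A] [Algebra A0 A]
  [IsLocalRing A] [CommRing 𝒪] [Algebra A 𝒪]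

namespace DiscData

variable (D : DiscData A0 A 𝒪)

open Classical in
/-- The divided difference `(f - f(u)) / (t - u)`. -/
noncomputable def dd (u : A) (f : 𝒪) : 𝒪 :=
  if h : u ∈ IsLocalRing.maximalIdeal A then Classical.choose (D.exists_dd u h f) else 0

theorem dd_spec {u : A} (hu : u ∈ IsLocalRing.maximalIdeal A) (f : 𝒪) :
    f - algebraMap A 𝒪 (D.ev u f) = (D.t - algebraMap A 𝒪 u) * D.dd u f := by
  unfold dd
  rw [dif_pos hu]
  exact Classical.choose_spec (D.exists_dd u hu f)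

theorem dd_unique {u : A} (hu : u ∈ IsLocalRing.maximalIdeal A) {f g : 𝒪}
    (h : f - algebraMap A 𝒪 (D.ev u f) = (D.t - algebraMap A 𝒪 u) * g) : D.dd u f = g :=
  D.cancel u hu _ _ ((D.dd_spec hu f).symm.trans h)

/-- A variant of `dd_unique` with an arbitrary constant. -/
theorem dd_unique' {u : A} (hu : u ∈ IsLocalRing.maximalIdeal A) {f g : 𝒪} {c : A}
    (h : f - algebraMap A 𝒪 c = (D.t - algebraMap A 𝒪 u) * g) : D.dd u f = g := by
  have hc : D.ev u f = c := by
    have := congrArg (D.ev u) h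
    rw [map_sub, map_mul, map_sub, AlgHom.commutes, AlgHom.commutes, D.ev_t u hu] at this
    simp only [Algebra.algebraMap_self_apply, sub_self, zero_mul] at this
    exact sub_eq_zero.mp this
  exact D.dd_unique hu (by rw [hc]; exact h)

omit [CommRing A0] [Algebra A0 A] [CommRing 𝒪] [Algebra A 𝒪] in
theorem zero_mem_max : (0 : A) ∈ IsLocalRing.maximalIdeal A := Ideal.zero_mem _

/-- `f(v) - f(u) = (v - u) * (δ_u f)(v)`. -/
theorem ev_sub_ev {u v : A} (hu : u ∈ IsLocalRing.maximalIdeal A)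
    (hv : v ∈ IsLocalRing.maximalIdeal A) (f : 𝒪) :
    D.ev v f - D.ev u f = (v - u) * D.ev v (D.dd u f) := by
  have := congrArg (D.ev v) (D.dd_spec hu f)
  rw [map_sub, map_mul, map_sub, AlgHom.commutes, AlgHom.commutes, D.ev_t v hv] at this
  simpa using this

theorem dd_add {u : A} (hu : u ∈ IsLocalRing.maximalIdeal A) (f g : 𝒪) :
    D.dd u (f + g) = D.dd u f + D.dd u g := by
  apply D.dd_unique hu
  rw [map_add, map_add, mul_add, ← D.dd_spec hu f, ← D.dd_spec hu g]
  ring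

theorem dd_const_mul {u : A} (hu : u ∈ IsLocalRing.maximalIdeal A) (c : A) (f : 𝒪) :
    D.dd u (algebraMap A 𝒪 c * f) = algebraMap A 𝒪 c * D.dd u f := by
  apply D.dd_unique hu
  rw [map_mul, AlgHom.commutes, map_mul]
  simp only [Algebra.algebraMap_self_apply]
  have := D.dd_spec hu f
  linear_combination (algebraMap A 𝒪 c) * this

theorem dd_const {u : A} (hu : u ∈ IsLocalRing.maximalIdeal A) (c : A) :
    D.dd u (algebraMap A 𝒪 c) = 0 := by
  apply D.dd_unique hu
  rw [AlgHom.commutes]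
  simp

theorem dd_zero_fun {u : A} (hu : u ∈ IsLocalRing.maximalIdeal A) : D.dd u (0 : 𝒪) = 0 := by
  have := D.dd_const hu 0
  simpa using this

theorem dd_t {u : A} (hu : u ∈ IsLocalRing.maximalIdeal A) : D.dd u D.t = 1 := by
  apply D.dd_unique hu
  rw [D.ev_t u hu, mul_one]

/-- Leibniz rule for divided differences. -/
theorem dd_mul {u : A} (hu : u ∈ IsLocalRing.maximalIdeal A) (f g : 𝒪) :
    D.dd u (f * g) = f * D.dd u g + algebraMap A 𝒪 (D.ev u g) * D.dd u f := by
  apply D.dd_unique hu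
  rw [map_mul, map_mul]
  have h1 := D.dd_spec hu f
  have h2 := D.dd_spec hu g
  linear_combination f * h2 + (algebraMap A 𝒪 (D.ev u g)) * h1

theorem dd_sum {u : A} (hu : u ∈ IsLocalRing.maximalIdeal A) {α : Type*} (s : Finset α)
    (f : α → 𝒪) : D.dd u (∑ a ∈ s, f a) = ∑ a ∈ s, D.dd u (f a) := by
  classical
  induction s using Finset.induction_on with
  | empty => simpa using D.dd_zero_fun hu
  | insert a s ha ih => rw [Finset.sum_insert ha, Finset.sum_insert ha, D.dd_add hu, ih]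

theorem dd_t_pow_succ {u : A} (hu : u ∈ IsLocalRing.maximalIdeal A) (n : ℕ) :
    D.dd u (D.t ^ (n + 1)) = D.t ^ n + algebraMap A 𝒪 u * D.dd u (D.t ^ n) := by
  rw [pow_succ, D.dd_mul hu, D.dd_t hu, D.ev_t u hu, mul_one]

theorem dd_t_pow_zero {u : A} (hu : u ∈ IsLocalRing.maximalIdeal A) :
    D.dd u (D.t ^ 0) = 0 := by
  have := D.dd_const hu 1
  simpa using this

end DiscData

/-- The polynomials `h_n(X₀, X₁) = ∑_{a+b=n-1} X₁^a X₀^b` (`X₀ = u`, `X₁ = v`), defined by
`h_0 = 0`, `h_{n+1} = X₁^n + X₀ h_n`. -/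
noncomputable def hsum (A0 : Type u0) [CommRing A0] : ℕ → MvPolynomial (Fin 2) A0
  | 0 => 0
  | n + 1 => X 1 ^ n + X 0 * hsum A0 n

omit [IsLocalRing A] in
theorem aeval_hsum_succ_mem (x : Fin 2 → A) (n : ℕ) :
    aeval x (hsum A0 (n + 1)) ∈ Ideal.span (Set.range x) ^ n := by
  induction n with
  | zero => simp
  | succ n ih =>
    have h1 : x 1 ∈ Ideal.span (Set.range x) := Ideal.subset_span ⟨1, rfl⟩
    have h0 : x 0 ∈ Ideal.span (Set.range x) := Ideal.subset_span ⟨0, rfl⟩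
    rw [hsum, map_add, map_pow, map_mul, aeval_X, aeval_X]
    refine add_mem (Ideal.pow_mem_pow h1 _) ?_
    rw [pow_succ']
    exact Ideal.mul_mem_mul h0 ih

namespace DiscData

variable (D : DiscData A0 A 𝒪)

/-- `(δ_u t^n)(v) = h_n(u, v)`. -/
theorem ev_dd_t_pow (x : Fin 2 → A) (hx : InDisc x) (n : ℕ) :
    D.ev (x 1) (D.dd (x 0) (D.t ^ n)) = aeval x (hsum A0 n) := by
  induction n with
  | zero =>
    rw [D.dd_t_pow_zero (hx 0), map_zero]
    simp [hsum]
  | succ n ih =>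
    rw [D.dd_t_pow_succ (hx 0), map_add, map_mul, map_pow, D.ev_t _ (hx 1), AlgHom.commutes, ih]
    simp [hsum]

/-- The iterated quotients `f_n = δ_0^n f`. -/
noncomputable def tay (f : 𝒪) : ℕ → 𝒪
  | 0 => f
  | n + 1 => D.dd 0 (tay f n)

theorem tay_mem_rat {f : 𝒪} (hf : f ∈ D.rat) (n : ℕ) : D.tay f n ∈ D.rat := by
  induction n with
  | zero => exact hf
  | succ n ih =>
    refine D.dd_rat _ ih _ ?_
    have := D.dd_spec zero_mem_max (D.tay f n)
    rw [map_zero, sub_zero] at this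
    exact this

/-- Taylor expansion with remainder. -/
theorem taylor (f : 𝒪) (M : ℕ) :
    f = ∑ n ∈ Finset.range M, algebraMap A 𝒪 (D.ev 0 (D.tay f n)) * D.t ^ n
      + D.t ^ M * D.tay f M := by
  induction M with
  | zero => simp [tay]
  | succ M ih =>
    have h := D.dd_spec zero_mem_max (D.tay f M)
    rw [map_zero, sub_zero] at h
    have h' : D.tay f M = algebraMap A 𝒪 (D.ev 0 (D.tay f M)) + D.t * D.tay f (M + 1) := by
      rw [tay, ← h]; ring
    rw [Finset.sum_range_succ]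
    conv_lhs => rw [ih, h']
    ring

/-- The Taylor coefficients of a rational function, as elements of `A0`. -/
noncomputable def coef {f : 𝒪} (hf : f ∈ D.rat) (n : ℕ) : A0 :=
  Classical.choose (D.ev_rat _ (D.tay_mem_rat hf n))

theorem coef_spec {f : 𝒪} (hf : f ∈ D.rat) (n : ℕ) :
    D.ev 0 (D.tay f n) = algebraMap A0 A (D.coef hf n) :=
  Classical.choose_spec (D.ev_rat _ (D.tay_mem_rat hf n))

/-- Value of `f` at the point of parameter `u`: Taylor polynomial plus `u^M * (value in A)`. -/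
theorem ev_eq_taylor {u : A} (hu : u ∈ IsLocalRing.maximalIdeal A) (f : 𝒪) (M : ℕ) :
    D.ev u f = ∑ n ∈ Finset.range M, D.ev 0 (D.tay f n) * u ^ n + u ^ M * D.ev u (D.tay f M) := by
  conv_lhs => rw [D.taylor f M]
  rw [map_add, map_sum, map_mul, map_pow, D.ev_t u hu]
  congr 1
  refine Finset.sum_congr rfl (fun n _ => ?_)
  rw [map_mul, map_pow, D.ev_t u hu, AlgHom.commutes]
  simp

/-- First order expansion, the form needed for the nondegeneracy hypothesis of Newton's method. -/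
theorem ev_sub_ev_zero_mem {u : A} (hu : u ∈ IsLocalRing.maximalIdeal A) (f : 𝒪) :
    D.ev u f - D.ev 0 f - D.ev 0 (D.dd 0 f) * u ∈ Ideal.span {u ^ 2} := by
  have := D.ev_eq_taylor hu f 2
  rw [Finset.sum_range_succ, Finset.sum_range_one] at this
  rw [Ideal.mem_span_singleton']
  refine ⟨D.ev u (D.tay f 2), ?_⟩
  rw [this]
  simp only [tay]
  ring

/-- The Taylor polynomial of order `M` of a rational function. -/
noncomputable def taylorPoly {f : 𝒪} (hf : f ∈ D.rat) (M : ℕ) : MvPolynomial Unit A0 :=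
  ∑ n ∈ Finset.range M, C (D.coef hf n) * X () ^ n

/-- **Values of a rational function are strictly analytic in the parameter.** -/
theorem approxAt_ev {f : 𝒪} (hf : f ∈ D.rat) (M : ℕ) :
    ApproxAt A0 (⊥ : Ideal A) (fun x : Unit → A => D.ev (x ()) f) M (D.taylorPoly hf M) := by
  intro x hx
  have hu := hx ()
  have h1 := D.ev_eq_taylor hu f M
  have h2 : aeval x (D.taylorPoly hf M) =
      ∑ n ∈ Finset.range M, D.ev 0 (D.tay f n) * x () ^ n := by
    rw [taylorPoly, map_sum]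
    refine Finset.sum_congr rfl (fun n _ => ?_)
    rw [map_mul, map_pow, aeval_X, aeval_C, D.coef_spec hf n]
  have h3 : D.ev (x ()) f - aeval x (D.taylorPoly hf M) = x () ^ M * D.ev (x ()) (D.tay f M) := by
    rw [h1, h2]; ring
  show D.ev (x ()) f - aeval x (D.taylorPoly hf M) ∈ gauge ⊥ x ^ M
  rw [h3]
  exact Ideal.mul_mem_right _ _ (Ideal.pow_mem_pow (coord_mem_gauge ⊥ x ()) M)

theorem isAn₁_ev {f : 𝒪} (hf : f ∈ D.rat) : IsAn₁ A0 (⊥ : Ideal A) (fun u => D.ev u f) :=
  fun M => ⟨D.taylorPoly hf M, D.approxAt_ev hf M⟩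

/-- The approximants of the divided difference. -/
noncomputable def ddPoly {f : 𝒪} (hf : f ∈ D.rat) (M : ℕ) : MvPolynomial (Fin 2) A0 :=
  ∑ n ∈ Finset.range (M + 1), C (D.coef hf n) * hsum A0 n

/-- **Divided differences of a rational function are jointly strictly analytic**:
`(u, v) = (x 0, x 1) ↦ (δ_u f)(v)`. -/
theorem approxAt_ev_dd {f : 𝒪} (hf : f ∈ D.rat) (M : ℕ) :
    ApproxAt A0 (⊥ : Ideal A) (fun x : Fin 2 → A => D.ev (x 1) (D.dd (x 0) f)) M
      (D.ddPoly hf M) := by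
  intro x hx
  have hu := hx 0
  have hv := hx 1
  set g := D.tay f (M + 1) with hg
  -- `δ_u f = ∑ c_n δ_u t^n + t^(M+1) δ_u g + g(u) δ_u t^(M+1)`
  have h1 : D.dd (x 0) f =
      ∑ n ∈ Finset.range (M + 1), algebraMap A 𝒪 (D.ev 0 (D.tay f n)) * D.dd (x 0) (D.t ^ n)
        + (D.t ^ (M + 1) * D.dd (x 0) g
          + algebraMap A 𝒪 (D.ev (x 0) g) * D.dd (x 0) (D.t ^ (M + 1))) := by
    conv_lhs => rw [D.taylor f (M + 1)]
    rw [D.dd_add hu, D.dd_sum hu, D.dd_mul hu]
    congr 1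
    refine Finset.sum_congr rfl (fun n _ => ?_)
    rw [D.dd_const_mul hu]
  have h2 : D.ev (x 1) (D.dd (x 0) f) =
      ∑ n ∈ Finset.range (M + 1), D.ev 0 (D.tay f n) * aeval x (hsum A0 n)
        + (x 1 ^ (M + 1) * D.ev (x 1) (D.dd (x 0) g)
          + D.ev (x 0) g * aeval x (hsum A0 (M + 1))) := by
    rw [h1, map_add, map_add, map_sum, map_mul, map_mul, map_pow, D.ev_t _ hv, AlgHom.commutes,
      D.ev_dd_t_pow x hx]
    congr 1
    · refine Finset.sum_congr rfl (fun n _ => ?_)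
      rw [map_mul, AlgHom.commutes, D.ev_dd_t_pow x hx]
      simp
  have h3 : aeval x (D.ddPoly hf M) =
      ∑ n ∈ Finset.range (M + 1), D.ev 0 (D.tay f n) * aeval x (hsum A0 n) := by
    rw [ddPoly, map_sum]
    refine Finset.sum_congr rfl (fun n _ => ?_)
    rw [map_mul, aeval_C, D.coef_spec hf n]
  show D.ev (x 1) (D.dd (x 0) f) - aeval x (D.ddPoly hf M) ∈ gauge ⊥ x ^ M
  have h4 : D.ev (x 1) (D.dd (x 0) f) - aeval x (D.ddPoly hf M) =
      x 1 ^ (M + 1) * D.ev (x 1) (D.dd (x 0) g) + D.ev (x 0) g * aeval x (hsum A0 (M + 1)) := by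
    rw [h2, h3]; ring
  rw [h4]
  refine add_mem ?_ ?_
  · refine Ideal.mul_mem_right _ _ ?_
    exact Ideal.pow_le_pow_right (Nat.le_succ M) (Ideal.pow_mem_pow (coord_mem_gauge ⊥ x 1) _)
  · refine Ideal.mul_mem_left _ _ ?_
    exact Ideal.pow_right_mono (span_le_gauge ⊥ x) M (aeval_hsum_succ_mem x M)

theorem isAn_ev_dd {f : 𝒪} (hf : f ∈ D.rat) :
    IsAn A0 (⊥ : Ideal A) (fun x : Fin 2 → A => D.ev (x 1) (D.dd (x 0) f)) :=
  fun M => ⟨D.ddPoly hf M, D.approxAt_ev_dd hf M⟩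

/-- Values at a coordinate, any constant ideal. -/
theorem isAn_ev_coord {f : 𝒪} (hf : f ∈ D.rat) (𝔠 : Ideal A) {ι : Type*} (i : ι) :
    IsAn A0 𝔠 (fun x : ι → A => D.ev (x i) f) :=
  (IsAn₁.at_coord (D.isAn₁_ev hf) i).mono bot_le

/-- Divided differences at two coordinates, any constant ideal. -/
theorem isAn_ev_dd_coord {f : 𝒪} (hf : f ∈ D.rat) (𝔠 : Ideal A) {ι : Type*} (i j : ι) :
    IsAn A0 𝔠 (fun x : ι → A => D.ev (x j) (D.dd (x i) f)) := by
  have := (D.isAn_ev_dd hf).reindex (fun k : Fin 2 => if k = 0 then i else j)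
  refine (this.mono bot_le).congr (fun x _ => ?_)
  simp

end DiscData

end Fermat.Agent.S19lib.An
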