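/-
FF-An: umbrella import for the analytic calculus.
-/
import Fermat.Agent.S19lib.An.Gauge
import Fermat.Agent.S19lib.An.Basic
import Fermat.Agent.S19lib.An.Ring
import Fermat.Agent.S19lib.An.Comp
import Fermat.Agent.S19lib.An.Newton
import Fermat.Agent.S19lib.An.Implicit
import Fermat.Agent.S19lib.An.Trunc
import Fermat.Agent.S19lib.An.Disc
import Fermat.Agent.S19lib.An.Val
import Fermat.Agent.S19lib.An.Bridge
import Fermat.Agent.S19lib.An.Calc
import Fermat.Agent.S19lib.An.CalcNewton
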