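/-
FF-An: the composition statement `D.CompStmt` consumed by block FF-D.
-/
import Fermat.Agent.S19lib.An.Calc
import Fermat.Agent.S19lib.D.Trans

namespace Fermat.Agent.S19lib.An

variable {L : Type*} [Field L] (A : ValuationSubring L) (R : Subring L)

/-- **`CompStmt`**: composition of analytic maps, for `R ≤ A`, `v ϖ < 1` and `𝔪 ∩ R ⊆ ϖ A`. -/
theorem compStmt (hR : R ≤ A.toSubring) {ϖ : L} (hϖ : A.valuation ϖ < 1)
    (hε : ∀ ε ∈ R, A.valuation ε < 1 → A.valuation ε ≤ A.valuation ϖ) :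
    Fermat.Agent.S19lib.D.CompStmt A R ϖ :=
  fun _ _ _ _ _ _ _ _ hf hg hgm => analyticMap_comp A R hR hϖ hε hf hg hgm

end Fermat.Agent.S19lib.An
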